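import Fermat.Agent.MW.Curve.Frame
import Fermat.Agent.MW.Valued.Family
import Fermat.Agent.MW.Valued.DetBound

/-!
# The affine chart where the linear form `hh t` does not vanish
-/

set_option autoImplicit false
set_option linter.unusedSectionVars false
set_option linter.style.haveILetI false

noncomputable section

namespace FA.MW

open AlgebraicCurve FA.Curve Polynomial IntermediateField

local notation "Qb" => AlgebraicClosure ℚ

variable {F : Type} [Field F] [Algebra Qb F]

namespace GalCurve

variable (C : GalCurve F) (t : ℕ)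

/-- The functions `f i / hh t`. -/
def chartFun (i : Fin C.M) : F := C.f i / C.hh t

/-- The coordinate ring of the chart. -/
def chartRing : Subalgebra Qb F := Algebra.adjoin Qb (Set.range (C.chartFun t))

/-- The coordinates. -/
def chartGen (i : Fin C.M) : C.chartRing t := ⟨C.chartFun t i, Algebra.subset_adjoin ⟨i, rfl⟩⟩

/-- The places of the chart. -/
def Good (P : Place Qb F) : Prop := lam t (C.fv P) ≠ 0

variable {t}

theorem adjoin_chartGen : Algebra.adjoin Qb (Set.range (C.chartGen t)) = ⊤ := by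
  refine eq_top_iff.2 fun a _ => ?_
  obtain ⟨a, ha⟩ := a
  induction ha using Algebra.adjoin_induction with
  | mem x hx => obtain ⟨i, rfl⟩ := hx; exact Algebra.subset_adjoin ⟨i, rfl⟩
  | algebraMap c => exact Subalgebra.algebraMap_mem _ c
  | add x y hx hy ihx ihy => exact add_mem (ihx trivial) (ihy trivial)
  | mul x y hx hy ihx ihy => exact mul_mem (ihx trivial) (ihy trivial)

theorem ord_hh {P : Place Qb F} (hP : C.Good t P) : P.ord (C.hh t) = -C.Dk 1 P := by
  have h1 := C.val_eq_zero_iff (C.atLeast_mul_scale_one (C.hh_mem t) P)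
  rw [C.val_hh] at h1
  have h2 : ¬ AtLeast P 1 (C.hh t * C.scale P) := fun h => hP (h1.2 h)
  have h0 := (C.atLeast_mul_scale_one (C.hh_mem t) P)
  have hne : C.hh t * C.scale P ≠ 0 := mul_ne_zero (C.hh_ne_zero t) (C.scale_ne_zero P)
  rw [atLeast_iff hne, P.ord_mul (C.hh_ne_zero t) (C.scale_ne_zero P), C.ord_scale] at h0 h2
  omega

theorem ord_hh_pow {P : Place Qb F} (hP : C.Good t P) (k : ℕ) :
    P.ord (C.hh t ^ k) = -C.Dk k P := by
  rw [FA.ModField.place_ord_pow, C.ord_hh hP, C.Dk_apply k P]; ring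

theorem atLeast_div {P : Place Qb F} (hP : C.Good t P) {k : ℕ} {g : F}
    (hg : g ∈ C.space (k * C.m)) : AtLeast P 0 (g / C.hh t ^ k) := by
  rw [div_eq_mul_inv]
  exact ((mem_riemannRochSpace.1 hg P : AtLeast P (-C.Dk k P) g).mul
    (Or.inr (by rw [P.ord_inv, C.ord_hh_pow hP, neg_neg]) :
      AtLeast P (C.Dk k P) (C.hh t ^ k)⁻¹)).mono (neg_add_cancel _).ge

theorem atLeast_chartRing {P : Place Qb F} (hP : C.Good t P) (a : C.chartRing t) :
    AtLeast P 0 (a : F) := by
  obtain ⟨a, ha⟩ := a
  induction ha using Algebra.adjoin_induction with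
  | mem x hx =>
    obtain ⟨i, rfl⟩ := hx
    have := C.atLeast_div hP (k := 1) (g := C.f i) (by rw [one_mul]; exact C.f_mem i)
    rwa [pow_one] at this
  | algebraMap c => exact atLeast_algebraMap c
  | add x y hx hy ihx ihy => exact ihx.add ihy
  | mul x y hx hy ihx ihy => simpa using ihx.mul ihy

theorem val_div {P : Place Qb F} (hP : C.Good t P) {k : ℕ} {g : F}
    (hg : g ∈ C.space (k * C.m)) :
    C.val P (g / C.hh t ^ k) = C.gv k P g / lam t (C.fv P) ^ k := by
  rw [eq_div_iff (pow_ne_zero k hP), ← C.val_hh, gv,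
    ← C.val_pow (C.atLeast_mul_scale_one (C.hh_mem t) P) k, mul_pow,
    ← C.val_mul (C.atLeast_div hP hg) (by
      rw [← mul_pow]
      simpa using atLeast_pow (C.atLeast_mul_scale_one (C.hh_mem t) P) k),
    ← mul_assoc, div_mul_cancel₀ _ (pow_ne_zero k (C.hh_ne_zero t))]

theorem val_chartFun {P : Place Qb F} (hP : C.Good t P) (i : Fin C.M) :
    C.val P (C.chartFun t i) = C.fv P i / lam t (C.fv P) := by
  have := C.val_div hP (k := 1) (g := C.f i) (by rw [one_mul]; exact C.f_mem i)
  rwa [pow_one, pow_one, gv, pow_one] at this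

/-- The point of the chart at a place. -/
def pt {P : Place Qb F} (hP : C.Good t P) : C.chartRing t →ₐ[Qb] Qb where
  toFun a := C.val P (a : F)
  map_one' := by simpa using C.val_algebraMap P 1
  map_mul' a b := C.val_mul (C.atLeast_chartRing hP a) (C.atLeast_chartRing hP b)
  map_zero' := by simpa using C.val_algebraMap P 0
  map_add' a b := C.val_add (C.atLeast_chartRing hP a) (C.atLeast_chartRing hP b)
  commutes' c := C.val_algebraMap P c

theorem pt_apply {P : Place Qb F} (hP : C.Good t P) (a : C.chartRing t) :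
    C.pt hP a = C.val P (a : F) := rfl

theorem pt_injective {P Q : Place Qb F} (hP : C.Good t P) (hQ : C.Good t Q)
    (h : C.pt hP = C.pt hQ) : P = Q := by
  by_contra hne
  refine C.wedge_fv_ne_zero hne (funext fun q => ?_)
  have e : ∀ i, C.fv P i * lam t (C.fv Q) = C.fv Q i * lam t (C.fv P) := fun i => by
    have := AlgHom.congr_fun h (C.chartGen t i)
    rw [C.pt_apply, C.pt_apply] at this
    show _ = _
    change C.val P (C.chartFun t i) = C.val Q (C.chartFun t i) at this
    rwa [C.val_chartFun hP, C.val_chartFun hQ, div_eq_div_iff hP hQ] at this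
  simp only [wedge, Pi.zero_apply]
  refine (mul_left_inj' hQ).1 ?_
  linear_combination C.fv Q q.2 * e q.1 - C.fv Q q.1 * e q.2

theorem chartRing_ne_const : ∃ i, ∀ c : Qb, C.chartFun t i ≠ algebraMap Qb F c := by
  by_contra hall
  push Not at hall
  choose c hc using hall
  have h2 := C.two_le_M
  have e : ∀ i, C.f i = c i • C.hh t := fun i => by
    have := hc i
    rw [chartFun, div_eq_iff (C.hh_ne_zero t)] at this
    rw [this, Algebra.smul_def]
  set i₀ : Fin C.M := ⟨0, by omega⟩
  set i₁ : Fin C.M := ⟨1, by omega⟩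
  have h01 : i₀ ≠ i₁ := by simp [i₀, i₁]
  have := (linearIndependent_iff'.1 C.linearIndependent_f) {i₀, i₁}
    (fun i => if i = i₀ then c i₁ else -c i₀) (by
      rw [Finset.sum_pair h01, if_pos rfl, if_neg h01.symm, e i₀, e i₁, smul_smul, smul_smul,
        neg_mul, neg_smul, mul_comm (c i₀), add_neg_cancel]) i₁ (by simp)
  rw [if_neg h01.symm, neg_eq_zero] at this
  exact C.linearIndependent_f.ne_zero i₀ (by rw [e i₀, this, zero_smul])

/-- Every point of the chart is a place. -/
theorem exists_place (v : C.chartRing t →ₐ[Qb] Qb) :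
    ∃ (P : Place Qb F) (hP : C.Good t P), C.pt hP = v := by
  let I : Ideal (C.chartRing t).toSubring := RingHom.ker v.toRingHom
  obtain ⟨O, hO, hI⟩ := Ideal.image_subset_nonunits_valuationSubring I (RingHom.ker_ne_top _)
  have hmem : ∀ a : C.chartRing t, (a : F) ∈ O := fun a => hO a.2
  have hK : ∀ c : Qb, algebraMap Qb F c ∈ O := fun c => hmem (algebraMap Qb _ c)
  have hker : ∀ a : C.chartRing t, (a : F) - algebraMap Qb F (v a) ∈ O.nonunits := fun a => by
    refine hI ⟨⟨((a - algebraMap Qb (C.chartRing t) (v a) : C.chartRing t) : F),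
      (a - algebraMap Qb (C.chartRing t) (v a)).2⟩, ?_, ?_⟩
    · show v.toRingHom (a - algebraMap Qb (C.chartRing t) (v a)) = 0
      simp
    · rfl
  have hne : O ≠ ⊤ := by
    intro htop
    obtain ⟨i, hi⟩ := C.chartRing_ne_const (t := t)
    have h := hker (C.chartGen t i)
    rw [ValuationSubring.mem_nonunits_iff_or] at h
    rcases h with h | h
    · exact hi _ (sub_eq_zero.1 h)
    · exact h (htop ▸ ValuationSubring.mem_top _)
  set P := toPlace C.hF O hK hne
  have hval : ∀ a : C.chartRing t, HasValue P (a : F) (v a) := fun a => by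
    rw [HasValue]
    rcases eq_or_ne ((a : F) - algebraMap Qb F (v a)) 0 with h0 | h0
    · exact Or.inl h0
    refine Or.inr ?_
    have h1 : 0 ≤ P.ord ((a : F) - algebraMap Qb F (v a)) :=
      FA.ModField.ord_nonneg_of_mem P (sub_mem (hmem a) (hK _))
    by_contra hlt
    have hinv : ((a : F) - algebraMap Qb F (v a))⁻¹ ∈ P.toValuationSubring :=
      FA.ModField.mem_place_of_ord_nonneg P (by rw [P.ord_inv]; omega)
    have h := hker a
    rw [ValuationSubring.mem_nonunits_iff_or] at h
    exact h.elim h0 fun h => h hinv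
  have hgood : C.Good t P := by
    intro h0
    rw [← C.val_hh, C.val_eq_zero_iff (C.atLeast_mul_scale_one (C.hh_mem t) P)] at h0
    obtain ⟨i, hi⟩ := C.exists_fv_ne_zero P
    refine hi (C.val_eq_zero_iff (C.atLeast_mul_scale_one (C.f_mem i) P) |>.2 ?_)
    have h1 := (hval (C.chartGen t i)).atLeast.mul h0
    change AtLeast P (0 + 1) (C.chartFun t i * (C.hh t * C.scale P)) at h1
    rwa [chartFun, ← mul_assoc, div_mul_cancel₀ _ (C.hh_ne_zero t), zero_add] at h1
  exact ⟨P, hgood, AlgHom.ext fun a => C.val_eq (hval a)⟩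

/-- The frame generates the functions with a large pole at infinity. -/
theorem space_le_pow : ∀ K : ℕ, C.space ((K + 2) * C.m) ≤ C.space C.m ^ (K + 2)
  | 0 => by
    have hn := C.thr_lt_n
    have hm : C.m = C.n + C.n := by unfold m; omega
    calc C.space ((0 + 2) * C.m) = C.space (C.n + C.n + C.n + C.n) := by
          congr 1; rw [hm]; ring
      _ ≤ C.space (C.n + C.n + C.n) * C.space C.n := C.space_add_le (by omega) (by omega)
      _ ≤ C.space (C.n + C.n) * C.space C.n * C.space C.n :=
          mul_le_mul_left (C.space_add_le (by omega) (by omega)) _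
      _ ≤ C.space C.m * C.space C.m := by
          rw [mul_assoc]
          exact mul_le_mul' (le_of_eq (by rw [hm]))
            ((C.space_mul_le _ _).trans (le_of_eq (by rw [hm])))
      _ = C.space C.m ^ (0 + 2) := by rw [pow_two]
  | K + 1 => by
    have hm := C.thr_lt_m
    calc C.space ((K + 1 + 2) * C.m) = C.space ((K + 2) * C.m + C.m) := by congr 1; ring
      _ ≤ C.space ((K + 2) * C.m) * C.space C.m :=
          C.space_add_le (by omega) (by nlinarith)
      _ ≤ C.space C.m ^ (K + 2) * C.space C.m := mul_le_mul_left (space_le_pow K) _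
      _ = C.space C.m ^ (K + 1 + 2) := by rw [← pow_succ]

variable (t) in
theorem div_pow_mem_chartRing : ∀ (K : ℕ) (g : F), g ∈ C.space C.m ^ K →
    g / C.hh t ^ K ∈ C.chartRing t
  | 0, g, hg => by
    rw [pow_zero, Submodule.mem_one] at hg
    obtain ⟨c, rfl⟩ := hg
    simpa using (C.chartRing t).algebraMap_mem c
  | K + 1, g, hg => by
    rw [pow_succ] at hg
    refine Submodule.mul_induction_on hg (fun p hp q hq => ?_) fun x y hx hy => ?_
    · rw [pow_succ, mul_div_mul_comm]
      refine mul_mem (div_pow_mem_chartRing K p hp) ?_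
      obtain ⟨c, rfl⟩ := C.mem_space_iff_exists.1 hq
      rw [Finset.sum_div]
      refine sum_mem fun i _ => ?_
      rw [smul_div_assoc]
      exact Subalgebra.smul_mem _ (C.chartGen t i).2 _
    · rw [add_div]; exact add_mem hx hy

/-- The bad places of the chart. -/
theorem finite_bad : {P : Place Qb F | ¬ C.Good t P}.Finite := by
  refine (((finite_zeros C.hF (C.hh t)).insert C.inf)).subset fun P hP => ?_
  simp only [Set.mem_ofPred_eq, Good, not_not] at hP
  rcases eq_or_ne P C.inf with rfl | hne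
  · exact Set.mem_insert _ _
  rw [← C.val_hh, C.scale_of_ne hne, mul_one,
    C.val_eq_zero_iff ((C.mem_space.1 (C.hh_mem t)).1 P hne)] at hP
  refine Set.mem_insert_of_mem _ ?_
  have := (atLeast_iff (C.hh_ne_zero t)).1 hP
  show 0 < P.ord (C.hh t)
  omega

theorem one_le_ord_hh_add {P : Place Qb F} (hP : ¬ C.Good t P) :
    1 ≤ P.ord (C.hh t) + C.Dk 1 P := by
  simp only [Good, not_not] at hP
  rw [← C.val_hh, C.val_eq_zero_iff (C.atLeast_mul_scale_one (C.hh_mem t) P),
    atLeast_iff (mul_ne_zero (C.hh_ne_zero t) (C.scale_ne_zero P)),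
    P.ord_mul (C.hh_ne_zero t) (C.scale_ne_zero P), C.ord_scale] at hP
  exact hP

/-- The coordinate ring consists of the functions regular on the chart. -/
theorem mem_chartRing {g : F} (h : ∀ P, C.Good t P → AtLeast P 0 g) : g ∈ C.chartRing t := by
  classical
  rcases eq_or_ne g 0 with rfl | hg
  · exact zero_mem _
  set K : ℕ := ∑ P ∈ (C.finite_bad (t := t)).toFinset, (P.ord g).natAbs with hK
  suffices hmem : g * C.hh t ^ (K + 2) ∈ C.space ((K + 2) * C.m) by
    have := C.div_pow_mem_chartRing t _ _ (C.space_le_pow K hmem)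
    rwa [mul_div_assoc, div_self (pow_ne_zero _ (C.hh_ne_zero t)), mul_one] at this
  show g * _ ∈ riemannRochSpace (C.Dk (K + 2))
  rw [mem_riemannRochSpace]
  intro P
  refine Or.inr ?_
  rw [P.ord_mul hg (pow_ne_zero _ (C.hh_ne_zero t)), FA.ModField.place_ord_pow, C.Dk_apply (K + 2) P]
  by_cases hP : C.Good t P
  · have h1 := (atLeast_iff hg).1 (h P hP)
    rw [C.ord_hh hP]
    nlinarith
  · have h1 : (P.ord g).natAbs ≤ K :=
      Finset.single_le_sum (f := fun P : Place Qb F => (P.ord g).natAbs) (fun _ _ => Nat.zero_le _)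
        ((Set.Finite.mem_toFinset _).2 hP)
    have h2 := C.one_le_ord_hh_add hP
    have h3 : ((K + 2 : ℕ) : ℤ) * 1 ≤ ((K + 2 : ℕ) : ℤ) * (P.ord (C.hh t) + C.Dk 1 P) :=
      mul_le_mul_of_nonneg_left h2 (by positivity)
    push_cast at h3 ⊢
    have h4 : -(K : ℤ) ≤ P.ord g := by omega
    nlinarith

theorem div_mem_chartRing {k : ℕ} {g : F} (hg : g ∈ C.space (k * C.m)) :
    g / C.hh t ^ k ∈ C.chartRing t :=
  C.mem_chartRing fun _ hP => C.atLeast_div hP hg

/-- A function regular at a place of the chart is a fraction of functions regular on the chart. -/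
theorem exists_frac {R : Place Qb F} (hR : C.Good t R) {g : F} (hg : AtLeast R 0 g) :
    ∃ s c : C.chartRing t, C.val R (s : F) ≠ 0 ∧ (s : F) * g = c := by
  classical
  rcases eq_or_ne g 0 with rfl | hg0
  · exact ⟨1, 0, by simpa using (C.val_algebraMap R 1).trans_ne one_ne_zero, by simp⟩
  set S := (poleDiv C.hF g).support with hS
  set e : Divisor Qb F := poleDiv C.hF g
  have he0 := poleDiv_nonneg C.hF g
  set K : ℕ := (Divisor.degree e).toNat + C.thr + 1 with hKdef
  have hd : 0 ≤ Divisor.degree e := degree_nonneg C.hF he0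
  obtain ⟨G, hG, hG0, hGR⟩ := C.exists_exact (C.Dk K - e) {R} (by
    rw [map_sub, C.degree_Dk]
    have h1 := C.m_pos
    have : (K : ℤ) ≤ ((K * C.m : ℕ) : ℤ) := by exact_mod_cast Nat.le_mul_of_pos_right K h1
    omega)
  have hGm : G ∈ C.space (K * C.m) := riemannRochSpace_mono (sub_le_self _ he0) hG
  have hs := C.div_mem_chartRing (t := t) hGm
  have heR : e R = 0 := by
    simp only [e, poleDiv_apply]
    have := (atLeast_iff hg0).1 hg
    omega
  have hord : R.ord (G / C.hh t ^ K) = 0 := by
    rw [div_eq_mul_inv, R.ord_mul hG0 (inv_ne_zero (pow_ne_zero _ (C.hh_ne_zero t))), R.ord_inv,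
      C.ord_hh_pow hR, hGR R (Finset.mem_singleton_self _), Finsupp.sub_apply, heR]
    ring
  refine ⟨⟨_, hs⟩, ⟨_, C.mem_chartRing (t := t) (g := G / C.hh t ^ K * g) fun P hP => ?_⟩, ?_, rfl⟩
  · have h1 : AtLeast P (e P) (G / C.hh t ^ K) := by
      rw [div_eq_mul_inv]
      refine ((mem_riemannRochSpace.1 hG P).mul (Or.inr (by rw [P.ord_inv, C.ord_hh_pow hP, neg_neg]) :
        AtLeast P (C.Dk K P) (C.hh t ^ K)⁻¹)).mono ?_
      rw [Finsupp.sub_apply]
      omega
    refine (h1.mul (atLeast_ord g)).mono ?_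
    simp only [e, poleDiv_apply]
    omega
  · intro h0
    rw [C.val_eq_zero_iff (Or.inr hord.ge), atLeast_iff (div_ne_zero hG0 (pow_ne_zero _ (C.hh_ne_zero t))),
      hord] at h0
    omega

/-- A uniformiser at a place of the chart. -/
theorem exists_chart_unif {P : Place Qb F} (hP : C.Good t P) :
    ∃ T : C.chartRing t, (T : F) ≠ 0 ∧ P.ord (T : F) = 1 := by
  classical
  obtain ⟨g, hg, hg0, hgP⟩ := C.exists_exact (C.Dk 1 - Finsupp.single P 1) {P}
    (by rw [map_sub, C.degree_Dk, C.degree_single_one]; have := C.thr_lt_m; omega)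
  have hgm : g ∈ C.space (1 * C.m) :=
    riemannRochSpace_mono (sub_le_self _ (Finsupp.single_nonneg.2 zero_le_one)) hg
  refine ⟨⟨_, C.div_mem_chartRing (t := t) hgm⟩, div_ne_zero hg0 (pow_ne_zero _ (C.hh_ne_zero t)), ?_⟩
  show P.ord (g / C.hh t ^ 1) = 1
  rw [div_eq_mul_inv, P.ord_mul hg0 (inv_ne_zero (pow_ne_zero _ (C.hh_ne_zero t))), P.ord_inv,
    C.ord_hh_pow hP, hgP P (Finset.mem_singleton_self _), Finsupp.sub_apply, Finsupp.single_eq_same]
  ring

/-- A function vanishing to order `e` at a place of the chart, as a multiple of a power of the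
uniformiser. -/
theorem exists_eq_unif_pow {P : Place Qb F} (hP : C.Good t P) {T : C.chartRing t} (hT0 : (T : F) ≠ 0)
    (hT : P.ord (T : F) = 1) {e : ℕ} {g : C.chartRing t} (hg : AtLeast P (e : ℤ) (g : F)) :
    ∃ s c : C.chartRing t, C.pt hP s ≠ 0 ∧ s * g = T ^ e * c ∧
      (g ≠ 0 → P.ord (g : F) = e → C.pt hP c ≠ 0) := by
  have hq : AtLeast P 0 ((g : F) / (T : F) ^ e) := by
    rw [div_eq_mul_inv]
    exact (hg.mul (Or.inr (by rw [P.ord_inv, FA.ModField.place_ord_pow, hT, mul_one]) :
      AtLeast P (-(e : ℤ)) ((T : F) ^ e)⁻¹)).mono (by omega)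
  obtain ⟨s, c, hs, hid⟩ := C.exists_frac hP hq
  refine ⟨s, c, hs, Subtype.ext ?_, fun hg0 he hc => ?_⟩
  · push_cast
    rw [← hid]
    field_simp
  · have hg0' : (g : F) ≠ 0 := fun h => hg0 (Subtype.ext h)
    rw [C.pt_apply, ← hid, C.val_mul (C.atLeast_chartRing hP s) hq, mul_eq_zero] at hc
    refine hc.elim hs fun hc => ?_
    rw [C.val_eq_zero_iff hq, atLeast_iff (div_ne_zero hg0' (pow_ne_zero _ hT0)), div_eq_mul_inv,
      P.ord_mul hg0' (inv_ne_zero (pow_ne_zero _ hT0)), P.ord_inv, FA.ModField.place_ord_pow, hT,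
      he] at hc
    omega

variable (t) in
theorem affCurve : AffCurve Qb (C.chartRing t) (C.chartGen t) where
  gen := C.adjoin_chartGen
  alg := fun T a hT => by
    have hT' : Transcendental Qb (T : F) := fun h =>
      hT ((isAlgebraic_algHom_iff (C.chartRing t).val Subtype.val_injective).1 h)
    haveI := C.hF.finiteDimensional hT'
    have h : IsAlgebraic Qb⟮(T : F)⟯ (a : F) := Algebra.IsAlgebraic.isAlgebraic _
    open scoped algebraAdjoinAdjoin in
    have h' : IsAlgebraic (Algebra.adjoin Qb ({(T : F)} : Set F)) (a : F) :=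
      (IsFractionRing.isAlgebraic_iff (Algebra.adjoin Qb ({(T : F)} : Set F)) Qb⟮(T : F)⟯ F).2 h
    obtain ⟨p, hp0, hp⟩ := h'
    have hlift : p.map (algebraMap (Algebra.adjoin Qb ({(T : F)} : Set F)) F) ∈
        Polynomial.lifts (Polynomial.aeval (R := Qb) (T : F)).toRingHom := by
      rw [Polynomial.lifts_iff_coeff_lifts]
      intro n
      rw [Polynomial.coeff_map]
      exact (Algebra.adjoin_singleton_eq_range_aeval Qb (T : F)).le (p.coeff n).2
    obtain ⟨Q, hQ⟩ := hlift
    rw [Polynomial.coe_mapRingHom] at hQ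
    refine ⟨Q, ?_, Subtype.val_injective (?_ : (C.chartRing t).val.toRingHom _ = (C.chartRing t).val.toRingHom 0)⟩
    · rintro rfl
      rw [Polynomial.map_zero, eq_comm, Polynomial.map_eq_zero_iff Subtype.val_injective] at hQ
      exact hp0 hQ
    · rw [Polynomial.eval_map, Polynomial.hom_eval₂, map_zero]
      have hc : (C.chartRing t).val.toRingHom.comp (aeval T : Qb[X] →ₐ[Qb] C.chartRing t).toRingHom
          = (aeval (R := Qb) (T : F)).toRingHom := RingHom.ext fun q => by
        show (C.chartRing t).val (aeval T q) = aeval (T : F) q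
        rw [← Polynomial.aeval_algHom_apply]
        rfl
      rw [hc, ← Polynomial.eval_map, hQ, Polynomial.eval_map]
      exact hp
  unif := fun v => by
    obtain ⟨P, hP, rfl⟩ := C.exists_place v
    obtain ⟨T, hT0, hT⟩ := C.exists_chart_unif hP
    refine ⟨T, (C.val_eq_zero_iff (C.atLeast_chartRing hP T)).2 (Or.inr hT.ge), fun i => ?_⟩
    obtain ⟨s, c, hs, hid, -⟩ := C.exists_eq_unif_pow hP hT0 hT (e := 1)
      (g := C.chartGen t i - algebraMap Qb (C.chartRing t) (C.pt hP (C.chartGen t i))) (by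
        show AtLeast P 1 ((C.chartFun t i) - algebraMap Qb F _)
        exact C.hasValue_val (C.atLeast_chartRing hP (C.chartGen t i)))
    exact ⟨c, s, hs, by rwa [pow_one] at hid⟩

/-- The functions with a pole of order at most `k * m` at infinity, on the chart. -/
def chartSec (t k : ℕ) {κ : Type} (b : κ → C.space (k * C.m)) (l : κ) : C.chartRing t :=
  ⟨(b l : F) / C.hh t ^ k, C.div_mem_chartRing (b l).2⟩

variable (t) in
theorem zeroBound (k : ℕ) {κ : Type} [Fintype κ] (b : Module.Basis κ Qb (C.space (k * C.m))) :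
    ZeroBound Qb (C.chartSec t k b) (k * C.m) := by
  classical
  intro c hc τ _ v hv e he
  set g : C.space (k * C.m) := ∑ l, c l • b l
  have hg0 : (g : F) ≠ 0 := fun h => hc (funext fun l => by
    have h' : g = 0 := Subtype.ext h
    exact Fintype.linearIndependent_iff.1 b.linearIndependent c h' l)
  have hsum : ((∑ l, c l • C.chartSec t k b l : C.chartRing t) : F) = (g : F) / C.hh t ^ k := by
    simp [g, chartSec, Finset.sum_div, smul_div_assoc]
  choose P hP hpt using fun i => C.exists_place (v i)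
  have hinj : Function.Injective P := fun i j hij => hv (by
    rw [← hpt i, ← hpt j]; congr 1)
  have hle : ∀ i, (e i : ℤ) ≤ (divOf C.hF (g : F) + C.Dk k) (P i) := by
    intro i
    obtain ⟨T, s, c', hT, hs, hid⟩ := he i
    rw [← hpt i] at hT hs
    rw [C.pt_apply, C.val_eq_zero_iff (C.atLeast_chartRing (hP i) T)] at hT
    have hs' : (s : F) ≠ 0 := fun h => hs (by
      rw [C.pt_apply, h]; simpa using C.val_algebraMap (P i) 0)
    have hs0 : (P i).ord (s : F) = 0 :=
      (((C.hasValue_val (C.atLeast_chartRing (hP i) s))).ord_eq_zero hs).2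
    have hid' := congrArg (fun a : C.chartRing t => (a : F)) hid
    simp only [MulMemClass.coe_mul, SubmonoidClass.coe_pow, hsum] at hid'
    have h1 : AtLeast (P i) (e i : ℤ) ((T : F) ^ e i * (c' : F)) := by
      simpa using (atLeast_pow hT (e i)).mul (C.atLeast_chartRing (hP i) c')
    have hq0 : (g : F) / C.hh t ^ k ≠ 0 := div_ne_zero hg0 (pow_ne_zero _ (C.hh_ne_zero t))
    rw [← hid', atLeast_iff (mul_ne_zero hs' hq0), (P i).ord_mul hs' hq0, hs0, zero_add,
      div_eq_mul_inv, (P i).ord_mul hg0 (inv_ne_zero (pow_ne_zero _ (C.hh_ne_zero t))),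
      (P i).ord_inv, C.ord_hh_pow (hP i), neg_neg] at h1
    simpa using h1
  have hpos : (0 : Divisor Qb F) ≤ divOf C.hF (g : F) + C.Dk k := Finsupp.le_def.2 fun Q => by
    have h1 := (atLeast_iff hg0).1 (mem_riemannRochSpace.1 (show (g : F) ∈ riemannRochSpace (C.Dk k) from g.2) Q)
    simp only [Finsupp.coe_zero, Pi.zero_apply, Finsupp.add_apply, divOf_apply]
    omega
  have h2 : ∑ i, (e i : ℤ) ≤ ((k * C.m : ℕ) : ℤ) := by
    refine (Finset.sum_le_sum fun i _ => hle i).trans ?_
    rw [← Finset.sum_image (f := fun Q => (divOf C.hF (g : F) + C.Dk k) Q) (fun i _ j _ h => hinj h),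
      ← C.degree_Dk k, show Divisor.degree (C.Dk k) = Divisor.degree (divOf C.hF (g : F) + C.Dk k) by
        rw [map_add, degree_divOf, zero_add],
      degree_eq_finset_sum C.hF (divOf C.hF (g : F) + C.Dk k)
        (Finset.subset_union_right (s₁ := Finset.univ.image P))]
    exact Finset.sum_le_sum_of_subset_of_nonneg Finset.subset_union_left
      fun Q _ _ => Finsupp.le_def.1 hpos Q
  exact_mod_cast h2

end GalCurve

end FA.MW

end
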