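import Fermat.Agent.MW.Curve.Chart

/-!
# The derivation on a chart, and families with prescribed common zeros
-/

set_option autoImplicit false
set_option linter.unusedSectionVars false
set_option linter.style.haveILetI false

noncomputable section

namespace FA.MW

open AlgebraicCurve FA.Curve

local notation "Qb" => AlgebraicClosure ℚ

variable {F : Type} [Field F] [Algebra Qb F]

namespace GalCurve

variable (C : GalCurve F)

open scoped Classical in
/-- The places excluded from the divisors: infinity and the support of `dx`. -/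
def sigma : Finset (Place Qb F) := insert C.inf C.W.support

theorem ne_inf_of_notMem {P : Place Qb F} (h : P ∉ C.sigma) : P ≠ C.inf := by
  classical
  intro he; exact h (by rw [he]; exact Finset.mem_insert_self _ _)

theorem W_eq_zero {P : Place Qb F} (h : P ∉ C.sigma) : C.W P = 0 := by
  classical
  exact Finsupp.notMem_support_iff.1 fun h' => h (Finset.mem_insert_of_mem h')

theorem atLeast_δ {P : Place Qb F} {g : F} (hg : AtLeast P 0 g) :
    AtLeast P (-C.W P) (C.δ g) := by
  have h1 : AtLeast P 1 (g - algebraMap Qb F (C.val P g)) := C.hasValue_val hg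
  have h2 : C.δ g = C.δ (g - algebraMap Qb F (C.val P g)) := by simp
  rw [h2]
  rcases h1 with h0 | h1
  · rw [h0, map_zero]; exact atLeast_zero
  · obtain ⟨-, ho⟩ := C.ord_δ P (g - algebraMap Qb F (C.val P g)) (by omega)
    exact Or.inr (by omega)

theorem atLeast_δ_good {P : Place Qb F} (hP : P ∉ C.sigma) {g : F} (hg : AtLeast P 0 g) :
    AtLeast P 0 (C.δ g) := by
  simpa [C.W_eq_zero hP] using C.atLeast_δ hg

theorem atLeast_f {P : Place Qb F} (hP : P ≠ C.inf) (i : Fin C.M) : AtLeast P 0 (C.f i) :=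
  (C.mem_space.1 (C.f_mem i)).1 P hP

/-- The derivative of the point `P`. -/
def dv (P : Place Qb F) : Fin C.M → Qb := fun i => C.val P (C.δ (C.f i))

/-- The tangent line at `P`. -/
def tv (P : Place Qb F) : Fin C.M × Fin C.M → Qb := wedge (C.fv P) (C.dv P)

theorem val_δ_hh {P : Place Qb F} (hP : P ∉ C.sigma) (t : ℕ) :
    C.val P (C.δ (C.hh t)) = lam t (C.dv P) := by
  have key : ∀ s : Finset (Fin C.M), HasValue P (C.δ (∑ i ∈ s, ((t : Qb) ^ (i : ℕ)) • C.f i))
      (∑ i ∈ s, (t : Qb) ^ (i : ℕ) * C.dv P i) := by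
    intro s
    rw [map_sum]
    refine HasValue.finsetSum fun i _ => ?_
    rw [Derivation.map_smul, Algebra.smul_def]
    exact (C.hasValue_val (C.atLeast_δ_good hP (C.atLeast_f (C.ne_inf_of_notMem hP) i))).smul _
  exact C.val_eq (key Finset.univ)

theorem val_δ_chartFun {P : Place Qb F} (hP : P ∉ C.sigma) {t : ℕ} (hg : C.Good t P)
    (j : Fin C.M) :
    C.val P (C.δ (C.chartFun t j)) =
      (lam t (C.fv P) * C.dv P j - C.fv P j * lam t (C.dv P)) / lam t (C.fv P) ^ 2 := by
  have hu : AtLeast P 0 (C.chartFun t j) := C.atLeast_chartRing hg (C.chartGen t j)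
  have hh0 : AtLeast P 0 (C.hh t) := (C.mem_space.1 (C.hh_mem t)).1 P (C.ne_inf_of_notMem hP)
  have e1 : C.δ (C.f j) = C.chartFun t j * C.δ (C.hh t) + C.hh t * C.δ (C.chartFun t j) := by
    conv_lhs => rw [show C.f j = C.chartFun t j * C.hh t from
      (div_mul_cancel₀ _ (C.hh_ne_zero t)).symm]
    rw [Derivation.leibniz, smul_eq_mul, smul_eq_mul]
  have e2 : C.dv P j = C.fv P j / lam t (C.fv P) * lam t (C.dv P) +
      lam t (C.fv P) * C.val P (C.δ (C.chartFun t j)) := by
    rw [← C.val_chartFun hg, ← C.val_δ_hh hP t, ← C.val_hh, C.scale_of_ne (C.ne_inf_of_notMem hP),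
      mul_one, ← C.val_mul hu (C.atLeast_δ_good hP hh0),
      ← C.val_mul hh0 (C.atLeast_δ_good hP hu),
      ← C.val_add (by simpa using hu.mul (C.atLeast_δ_good hP hh0))
        (by simpa using hh0.mul (C.atLeast_δ_good hP hu)), ← e1]
    rfl
  rw [e2, eq_div_iff (pow_ne_zero 2 hg)]
  field_simp [show lam t (C.fv P) ≠ 0 from hg]
  ring

theorem val_δ_div_of_zero {P : Place Qb F} (hP : P ∉ C.sigma) {t : ℕ} (hg : C.Good t P) {k : ℕ}
    {g : F} (hgm : g ∈ C.space (k * C.m)) (h0 : C.gv k P g = 0) :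
    C.val P (C.δ (g / C.hh t ^ k)) = C.val P (C.δ g) / lam t (C.fv P) ^ k := by
  have hinf := C.ne_inf_of_notMem hP
  have hga : AtLeast P 0 g := (C.mem_space.1 hgm).1 P hinf
  have hh0 : AtLeast P 0 (C.hh t ^ k) := by
    simpa using atLeast_pow ((C.mem_space.1 (C.hh_mem t)).1 P hinf) k
  have hq : AtLeast P 0 (g / C.hh t ^ k) := C.atLeast_div hg hgm
  have e1 : C.δ g = g / C.hh t ^ k * C.δ (C.hh t ^ k) + C.hh t ^ k * C.δ (g / C.hh t ^ k) := by
    conv_lhs => rw [show g = g / C.hh t ^ k * C.hh t ^ k from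
      (div_mul_cancel₀ _ (pow_ne_zero k (C.hh_ne_zero t))).symm]
    rw [Derivation.leibniz, smul_eq_mul, smul_eq_mul]
  have hq0 : C.val P (g / C.hh t ^ k) = 0 := by rw [C.val_div hg hgm, h0, zero_div]
  have hhv : C.val P (C.hh t ^ k) = lam t (C.fv P) ^ k := by
    rw [C.val_pow ((C.mem_space.1 (C.hh_mem t)).1 P hinf) k, ← C.val_hh,
      C.scale_of_ne hinf, mul_one]
  rw [eq_div_iff (pow_ne_zero k hg), e1,
    C.val_add (by simpa using hq.mul (C.atLeast_δ_good hP hh0))
      (by simpa using hh0.mul (C.atLeast_δ_good hP hq)),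
    C.val_mul hq (C.atLeast_δ_good hP hh0), C.val_mul hh0 (C.atLeast_δ_good hP hq), hq0, zero_mul,
    zero_add, hhv, mul_comm]

/-- A simple zero has nonzero derivative. -/
theorem val_δ_ne_zero {P : Place Qb F} (hP : P ∉ C.sigma) {g : F} (h : P.ord g = 1) :
    C.val P (C.δ g) ≠ 0 := by
  obtain ⟨h0, ho⟩ := C.ord_δ P g (by omega)
  intro hv
  rw [C.val_eq_zero_iff (C.atLeast_δ_good hP (Or.inr (by omega))), atLeast_iff h0, ho,
    C.W_eq_zero hP, h] at hv
  omega

theorem exists_δ_chartGen_exact {t : ℕ} {P : Place Qb F} (hP : C.Good t P) :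
    ∃ i, C.δ (C.chartFun t i) ≠ 0 ∧ P.ord (C.δ (C.chartFun t i)) = -C.W P := by
  by_contra hno
  push Not at hno
  have h1 : ∀ i, AtLeast P (-C.W P + 1) (C.δ (C.chartFun t i)) := fun i => by
    rcases eq_or_ne (C.δ (C.chartFun t i)) 0 with h | h
    · exact Or.inl h
    · refine Or.inr ?_
      have h2 := (atLeast_iff h).1 (C.atLeast_δ (C.atLeast_chartRing hP (C.chartGen t i)))
      change -C.W P ≤ P.ord (C.δ (C.chartFun t i)) at h2
      have := hno i h
      omega
  have hall : ∀ a : C.chartRing t, AtLeast P (-C.W P + 1) (C.δ (a : F)) := by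
    rintro ⟨a, ha⟩
    induction ha using Algebra.adjoin_induction with
    | mem x hx => obtain ⟨i, rfl⟩ := hx; exact h1 i
    | algebraMap c => simpa using atLeast_zero
    | add x y hx hy ihx ihy =>
      show AtLeast P _ (C.δ (x + y))
      rw [map_add]; exact ihx.add ihy
    | mul x y hx hy ihx ihy =>
      show AtLeast P _ (C.δ (x * y))
      rw [Derivation.leibniz, smul_eq_mul, smul_eq_mul]
      exact (((C.atLeast_chartRing hP ⟨x, hx⟩).mul ihy).mono (zero_add _).ge).add
        (((C.atLeast_chartRing hP ⟨y, hy⟩).mul ihx).mono (zero_add _).ge)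
  obtain ⟨T, -, hT⟩ := C.exists_chart_unif hP
  obtain ⟨h0, ho⟩ := C.ord_δ P (T : F) (by omega)
  have := (atLeast_iff h0).1 (hall T)
  omega

theorem tv_ne_zero {P : Place Qb F} (hP : P ∉ C.sigma) : C.tv P ≠ 0 := by
  intro hw
  obtain ⟨i₀, hi₀⟩ := C.exists_fv_ne_zero P
  obtain ⟨g, hg, hg0, hgP⟩ := C.exists_exact (C.Dk 1 - Finsupp.single P 1) {P}
    (by rw [map_sub, C.degree_Dk, C.degree_single_one]; have := C.thr_lt_m; omega)
  have hgm : g ∈ C.space C.m := by
    have := riemannRochSpace_mono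
      (sub_le_self (C.Dk 1) (Finsupp.single_nonneg.2 zero_le_one : (0 : Divisor Qb F) ≤ Finsupp.single P 1)) hg
    simpa [space, Dk] using this
  have hinf := C.ne_inf_of_notMem hP
  have hord : P.ord g = 1 := by
    rw [hgP P (Finset.mem_singleton_self _)]
    simp [Dk, Finsupp.single_eq_of_ne hinf]
  refine C.val_δ_ne_zero hP hord ?_
  obtain ⟨c, rfl⟩ := C.mem_space_iff_exists.1 hgm
  have h0 : ∑ i, c i * C.fv P i = 0 := by
    rw [← C.val_sum_mul_scale, C.scale_of_ne hinf, mul_one,
      C.val_eq_zero_iff ((C.mem_space.1 hgm).1 P hinf)]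
    exact Or.inr hord.ge
  have h1 : C.val P (C.δ (∑ i, c i • C.f i)) = ∑ i, c i * C.dv P i := by
    have key : ∀ s : Finset (Fin C.M), HasValue P (C.δ (∑ i ∈ s, c i • C.f i))
        (∑ i ∈ s, c i * C.dv P i) := by
      intro s
      rw [map_sum]
      refine HasValue.finsetSum fun i _ => ?_
      rw [Derivation.map_smul, Algebra.smul_def]
      exact (C.hasValue_val (C.atLeast_δ_good hP (C.atLeast_f hinf i))).smul _
    exact C.val_eq (key Finset.univ)
  rw [h1]
  refine (mul_right_inj' hi₀).1 ?_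
  rw [Finset.mul_sum, mul_zero, ← mul_zero (C.dv P i₀), ← h0, Finset.mul_sum]
  refine Finset.sum_congr rfl fun i _ => ?_
  have := congrFun hw (i₀, i)
  simp only [tv, wedge, Pi.zero_apply] at this
  linear_combination c i * this

section family

variable {O : Type} [CommRing O] [IsDomain O] [Algebra Qb O] [IsLocalRing O] {t : ℕ}

open scoped Classical in
/-- A family whose common zero divisor on the chart is `E` has values generated by the product of
the distances to the points of `E`. -/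
theorem gen_chart_family {μ : Type} (N : μ → C.chartRing t) (E : Place Qb F → ℕ)
    (S : Finset (Place Qb F)) (hS : ∀ R ∈ S, C.Good t R)
    (hle : ∀ P, C.Good t P → ∀ i, AtLeast P (E P : ℤ) (N i : F))
    (heq : ∀ P, C.Good t P → ∃ i, N i ≠ 0 ∧ P.ord (N i : F) = E P)
    (hsupp : ∀ P, C.Good t P → P ∉ S → E P = 0)
    {P₀ : Place Qb F} (hP₀ : C.Good t P₀)
    (P : C.chartRing t →ₐ[Qb] O) (δ : S → O)
    (hδ : ∀ r : S, Gen O (fun i => P (C.chartGen t i) -
      algebraMap Qb O (C.pt (hS r r.2) (C.chartGen t i))) (δ r)) :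
    Gen O (fun i => P (N i)) (∏ r : S, δ r ^ E r) := by
  refine (C.affCurve t).gen_family N (fun r : S => C.pt (hS r r.2))
    (fun r r' he => Subtype.ext (C.pt_injective _ _ he)) (fun r => E r) ?_ ?_ ?_ P δ hδ
  · intro r
    have hr := hS r r.2
    obtain ⟨T, hT0, hT⟩ := C.exists_chart_unif hr
    have hfr : ∀ i, ∃ s c : C.chartRing t, C.pt hr s ≠ 0 ∧ s * N i = T ^ E r * c ∧
        (N i ≠ 0 → Place.ord (r : Place Qb F) (N i : F) = E r → C.pt hr c ≠ 0) := fun i =>
      C.exists_eq_unif_pow hr hT0 hT (hle _ hr i)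
    choose s c hs hid hc using hfr
    refine ⟨T, c, s, (C.val_eq_zero_iff (C.atLeast_chartRing hr T)).2 (Or.inr hT.ge),
      fun i => ?_, fun i => ⟨hs i, hid i⟩, ?_⟩
    · obtain ⟨s', c', hs', hid', -⟩ := C.exists_eq_unif_pow hr hT0 hT (e := 1)
        (g := C.chartGen t i - algebraMap Qb (C.chartRing t) (C.pt hr (C.chartGen t i))) (by
          show AtLeast _ 1 ((C.chartFun t i) - algebraMap Qb F _)
          exact C.hasValue_val (C.atLeast_chartRing hr (C.chartGen t i)))
      exact ⟨c', s', hs', by rwa [pow_one] at hid'⟩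
    · obtain ⟨i, hi, ho⟩ := heq _ hr
      exact ⟨i, hc i hi ho⟩
  · intro w hw
    obtain ⟨Q, hQ, rfl⟩ := C.exists_place w
    have hQS : Q ∉ S := fun h => hw ⟨Q, h⟩ rfl
    obtain ⟨i, hi, ho⟩ := heq Q hQ
    refine ⟨i, fun h0 => ?_⟩
    rw [C.pt_apply, C.val_eq_zero_iff (C.atLeast_chartRing hQ (N i)),
      atLeast_iff (fun h => hi (Subtype.ext h)), ho, hsupp Q hQ hQS] at h0
    omega
  · obtain ⟨i, hi, -⟩ := heq P₀ hP₀
    exact ⟨i, hi⟩

end family

end GalCurve

end FA.MW

end
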