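import Fermat.Agent.MW.Curve.FormInv

/-!
# The form at sums of points

At the sum of the frame over `r` points the form is the product of two determinants of values.
-/

set_option autoImplicit false
set_option linter.unusedSectionVars false
set_option linter.style.haveILetI false

noncomputable section

namespace FA.MW

open AlgebraicCurve FA.Curve

local notation "Qb" => AlgebraicClosure ℚ

variable {F : Type} [Field F] [Algebra Qb F]

namespace GalCurve

variable (C : GalCurve F)

/-- Functions with equal values outside a finite set are equal. -/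
theorem eq_of_val {u v : F} (T : Finset (Place Qb F))
    (h : ∀ w, w ∉ T → AtLeast w 0 u ∧ AtLeast w 0 v ∧ C.val w u = C.val w v) : u = v := by
  classical
  haveI := infinite_places C.hF
  by_contra hne
  obtain ⟨w, hw⟩ := ((T ∪ (finite_zeros C.hF (u - v)).toFinset).finite_toSet.infinite_compl
    (α := Place Qb F)).nonempty
  simp only [Set.mem_compl_iff, SetLike.mem_coe, Finset.mem_union, Set.Finite.mem_toFinset,
    Set.mem_ofPred_eq, not_or, not_lt] at hw
  obtain ⟨hu, hv, he⟩ := h w hw.1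
  have h1 : HasValue w (u - v) 0 := by simpa [he] using (C.hasValue_val hu).sub (C.hasValue_val hv)
  have := (atLeast_iff (sub_ne_zero.2 hne)).1 (hasValue_zero_iff.1 h1)
  omega

theorem val_sum {τ : Type} (s : Finset τ) (c : τ → Qb) {g : τ → F} {w : Place Qb F}
    (hg : ∀ a, AtLeast w 0 (g a)) :
    C.val w (∑ a ∈ s, c a • g a) = ∑ a ∈ s, c a * C.val w (g a) :=
  C.val_eq (HasValue.finsetSum fun a _ => by
    rw [Algebra.smul_def]; exact (C.hasValue_val (hg a)).smul (c a))

/-- The determinant of the values. -/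
def evDet {k : ℕ} (s : Fin k → F) (z : Fin k → Place Qb F) : Qb :=
  (Matrix.of fun a c => C.val (z c) (s a)).det

/-- The cofactor of the last column. -/
def cof {k : ℕ} (s : Fin (k + 1) → F) (z : Fin k → Place Qb F) (a : Fin (k + 1)) : Qb :=
  (-1) ^ ((a : ℕ) + k) * C.evDet (fun b => s (a.succAbove b)) z

/-- The function of the last point with the determinant of the values. -/
def cofFun {k : ℕ} (s : Fin (k + 1) → F) (z : Fin k → Place Qb F) : F :=
  ∑ a, C.cof s z a • s a

variable {k : ℕ} {s : Fin (k + 1) → F}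

theorem cofFun_mem (hs : ∀ a, s a ∈ C.space C.m) (z : Fin k → Place Qb F) :
    C.cofFun s z ∈ C.space C.m :=
  Submodule.sum_mem _ fun a _ => Submodule.smul_mem _ _ (hs a)

theorem val_cofFun {z : Fin k → Place Qb F} {w : Place Qb F} (hw : ∀ a, AtLeast w 0 (s a)) :
    C.val w (C.cofFun s z) = C.evDet s (Fin.snoc z w) := by
  rw [cofFun, C.val_sum _ _ hw, evDet, Matrix.det_succ_column _ (Fin.last k)]
  refine Finset.sum_congr rfl fun a _ => ?_
  rw [cof, evDet]
  simp only [Matrix.of_apply, Fin.snoc_last, Fin.val_last, Fin.succAbove_last]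
  rw [mul_right_comm]
  congr 2
  ext b c
  simp [Fin.snoc_castSucc]

theorem cofFun_ne_zero (hli : LinearIndependent Qb s) {z : Fin k → Place Qb F}
    (hz : C.evDet (fun b => s (Fin.castSucc b)) z ≠ 0) : C.cofFun s z ≠ 0 := fun h => by
  have h1 := Fintype.linearIndependent_iff.1 hli _ h (Fin.last k)
  rw [cof, Fin.succAbove_last] at h1
  exact hz ((mul_eq_zero.1 h1).resolve_left (pow_ne_zero _ (by norm_num)))

theorem injective_of_evDet_ne {k : ℕ} {s : Fin k → F} {z : Fin k → Place Qb F}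
    (h : C.evDet s z ≠ 0) : Function.Injective z := fun a b hab => by
  by_contra hne
  exact h (Matrix.det_zero_of_column_eq hne fun i => by
    simp only [Matrix.of_apply, hab])

theorem val_cofFun_self {z : Fin k → Place Qb F} (hz : ∀ c a, AtLeast (z c) 0 (s a)) (c : Fin k) :
    C.val (z c) (C.cofFun s z) = 0 := by
  rw [C.val_cofFun (hz c)]
  exact Matrix.det_zero_of_column_eq (Fin.castSucc_lt_last c).ne fun i => by simp

theorem atLeast_space {g : F} (hg : g ∈ C.space C.m) {w : Place Qb F} (hw : w ≠ C.inf) :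
    AtLeast w 0 g := (C.mem_space.1 hg).1 w hw

/-- **Points where two independent families have nonzero determinants of values.** -/
theorem exists_eval_points (T : Finset (Place Qb F)) : ∀ (k : ℕ) (s t : Fin k → F),
    (∀ a, s a ∈ C.space C.m) → (∀ a, t a ∈ C.space C.m) →
    LinearIndependent Qb s → LinearIndependent Qb t →
    ∃ z : Fin k → Place Qb F, (∀ c, z c ∉ T ∧ z c ≠ C.inf) ∧ C.evDet s z ≠ 0 ∧ C.evDet t z ≠ 0
  | 0, s, t, _, _, _, _ => ⟨Fin.elim0, fun c => c.elim0, by simp [evDet], by simp [evDet]⟩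
  | k + 1, s, t, hs, ht, hls, hlt => by
    classical
    haveI := infinite_places C.hF
    obtain ⟨z, hz, hsz, htz⟩ := exists_eval_points T k (fun b => s b.castSucc) (fun b => t b.castSucc)
      (fun b => hs _) (fun b => ht _) (hls.comp _ (Fin.castSucc_injective k))
      (hlt.comp _ (Fin.castSucc_injective k))
    have hS := C.cofFun_ne_zero hls hsz
    have hT := C.cofFun_ne_zero hlt htz
    obtain ⟨w, hw⟩ := ((T ∪ {C.inf} ∪ (finite_zeros C.hF (C.cofFun s z)).toFinset ∪
      (finite_zeros C.hF (C.cofFun t z)).toFinset).finite_toSet.infinite_compl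
        (α := Place Qb F)).nonempty
    simp only [Set.mem_compl_iff, SetLike.mem_coe, Finset.mem_union, Finset.mem_singleton,
      Set.Finite.mem_toFinset, Set.mem_ofPred_eq, not_or, not_lt] at hw
    obtain ⟨⟨⟨hwT, hwi⟩, hw1⟩, hw2⟩ := hw
    have key : ∀ (u : Fin (k + 1) → F), (∀ a, u a ∈ C.space C.m) → C.cofFun u z ≠ 0 →
        w.ord (C.cofFun u z) ≤ 0 → C.evDet u (Fin.snoc z w) ≠ 0 := fun u hu h0 h1 h2 => by
      rw [← C.val_cofFun fun a => C.atLeast_space (hu a) hwi,
        C.val_eq_zero_iff (C.atLeast_space (C.cofFun_mem hu z) hwi), atLeast_iff h0] at h2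
      omega
    refine ⟨Fin.snoc z w, fun c => ?_, key s hs hS hw1, key t ht hT hw2⟩
    refine Fin.lastCases ?_ (fun c => ?_) c
    · simpa using And.intro hwT hwi
    · simpa using hz c

/-- The sum of the frame over points. -/
def sumPt {k : ℕ} (z : Fin k → Place Qb F) : Fin C.M → Qb := fun i => ∑ c, C.fv (z c) i

theorem sum_sumPt {k : ℕ} {z : Fin k → Place Qb F} (hz : ∀ c, z c ≠ C.inf) {g : F}
    (hg : g ∈ C.space C.m) : ∑ i, C.sumPt z i * C.crd g i = ∑ c, C.val (z c) g := by
  simp only [sumPt, Finset.sum_mul]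
  rw [Finset.sum_comm]
  refine Finset.sum_congr rfl fun c _ => ?_
  have h := C.val_fn (C.crd g) (z c)
  rw [C.fn_crd hg, C.scale_of_ne (hz c), mul_one] at h
  exact h.symm

theorem rr_pos : 0 < C.rr := by
  have := C.M_eq; have := C.genus_lt_n; unfold rr m at *; omega

/-- The number of points less one. -/
def r1 : ℕ := C.rr - 1

theorem r1_succ : C.r1 + 1 = C.rr := by
  have := C.rr_pos; unfold r1; omega

variable {C}

namespace Pair

variable {x : Pic0 Qb F} (p : C.Pair x)

/-- The functions vanishing on `E`. -/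
def sG (a : Fin (C.r1 + 1)) : F := C.fn (kvec (C.ev p.E) p.eE (finCongr C.r1_succ a))

/-- The functions vanishing on `D`. -/
def tG (a : Fin (C.r1 + 1)) : F := C.fn (kvec (C.ev p.D) p.eD (finCongr C.r1_succ a))

theorem sG_mem (a : Fin (C.r1 + 1)) : p.sG a ∈ C.space C.m := C.fn_mem _

theorem tG_mem (a : Fin (C.r1 + 1)) : p.tG a ∈ C.space C.m := C.fn_mem _

theorem li_fn_kvec {d : ℕ} (A : Matrix (Fin d) (Fin C.M) Qb) (e : Fin d ⊕ Fin C.rr ≃ Fin C.M) :
    LinearIndependent Qb fun a => C.fn (kvec A e (finCongr C.r1_succ a)) := by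
  refine LinearIndependent.comp (v := fun a => C.fn (kvec A e a)) ?_ _ (finCongr C.r1_succ).injective
  rw [Fintype.linearIndependent_iff]
  intro g hg b
  rw [← C.fn_sum, C.fn_eq_zero] at hg
  simpa using congrFun hg (e (Sum.inr b))

theorem li_sG : LinearIndependent Qb p.sG := li_fn_kvec _ _

theorem li_tG : LinearIndependent Qb p.tG := li_fn_kvec _ _

/-- Avoiding the representatives. -/
def Away (w : Place Qb F) : Prop :=
  w ∉ C.ptSet p.D p.injD ∧ w ∉ C.ptSet p.E p.injE ∧ w ≠ C.inf

theorem ord_q_away {w : Place Qb F} (hw : p.Away w) : w.ord (p.q : F) = 0 := by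
  classical
  have h := p.ord_q w
  rw [C.divS_apply, C.divS_apply, if_neg hw.1, if_neg hw.2.1] at h
  simpa [Dk, Finsupp.single_eq_of_ne hw.2.2] using h

theorem val_q_ne {w : Place Qb F} (hw : p.Away w) : C.val w (p.q : F) ≠ 0 := fun h => by
  rw [C.val_eq_zero_iff (C.atLeast_space p.q_mem hw.2.2), atLeast_iff p.q_ne', p.ord_q_away hw] at h
  omega

theorem val_div_q {w : Place Qb F} (hw : p.Away w) {g : F} (hg : AtLeast w 0 g) :
    C.val w (g / (p.q : F)) = C.val w g / C.val w (p.q : F) := by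
  have hd : AtLeast w 0 (g / (p.q : F)) := by
    rw [div_eq_mul_inv]
    exact (hg.mul (atLeast_ord (v := w) (p.q : F)⁻¹)).mono (by
      rw [w.ord_inv, p.ord_q_away hw]; norm_num)
  rw [eq_div_iff (p.val_q_ne hw), ← C.val_mul hd (C.atLeast_space p.q_mem hw.2.2),
    div_mul_cancel₀ _ p.q_ne']

/-- **The form at a sum of points.** -/
theorem form_sumPt {z : Fin (C.r1 + 1) → Place Qb F} (hz : ∀ c, p.Away (z c)) :
    p.form (C.sumPt z) = mdet (C.ev p.E) p.eE * mdet (C.ev p.D) p.eD *
      (C.evDet p.sG z * (∏ c, (C.val (z c) (p.q : F))⁻¹) * C.evDet p.tG z) := by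
  rw [form]
  refine congrArg _ ?_
  rw [formVal, ← Matrix.det_submatrix_equiv_self (finCongr C.r1_succ), evDet, evDet,
    ← Matrix.det_transpose (Matrix.of fun a c => C.val (z c) (p.tG a)), ← Matrix.det_diagonal,
    ← Matrix.det_mul, ← Matrix.det_mul]
  congr 1
  ext a b
  rw [Matrix.mul_apply]
  simp only [Matrix.submatrix_apply, Matrix.of_apply, Matrix.mul_diagonal, Matrix.transpose_apply]
  rw [show (∑ i, C.sumPt z i * p.cmat (kvec (C.ev p.E) p.eE) (kvec (C.ev p.D) p.eD)
      (finCongr C.r1_succ a) (finCongr C.r1_succ b) i) = ∑ c, C.val (z c) (p.sG a * p.tG b / p.q) from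
    C.sum_sumPt (fun c => (hz c).2.2)
      (p.prod_mem (inKer_kvec _ p.mdet_eE _) (inKer_kvec _ p.mdet_eD _))]
  refine Finset.sum_congr rfl fun c _ => ?_
  have hs := C.atLeast_space (p.sG_mem a) (hz c).2.2
  have ht := C.atLeast_space (p.tG_mem b) (hz c).2.2
  rw [p.val_div_q (hz c) (by simpa using hs.mul ht), C.val_mul hs ht, div_eq_mul_inv]
  ring

theorem exists_away (T : Finset (Place Qb F)) :
    ∃ U : Finset (Place Qb F), T ⊆ U ∧ ∀ w, w ∉ U → p.Away w := by
  classical
  refine ⟨T ∪ C.ptSet p.D p.injD ∪ C.ptSet p.E p.injE ∪ {C.inf}, fun v hv => ?_, fun w hw => ?_⟩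
  · simp [hv]
  · simp only [Finset.mem_union, Finset.mem_singleton, not_or] at hw
    exact ⟨hw.1.1.2, hw.1.2, hw.2⟩

theorem exists_form_ne_zero : ∃ φ, p.form φ ≠ 0 := by
  obtain ⟨U, -, hU⟩ := p.exists_away ∅
  obtain ⟨z, hz, hs, ht⟩ := C.exists_eval_points U _ p.sG p.tG p.sG_mem p.tG_mem p.li_sG p.li_tG
  refine ⟨C.sumPt z, ?_⟩
  rw [p.form_sumPt fun c => hU _ (hz c).1]
  exact mul_ne_zero (mul_ne_zero p.mdet_eE p.mdet_eD)
    (mul_ne_zero (mul_ne_zero hs (Finset.prod_ne_zero_iff.2 fun c _ =>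
      inv_ne_zero (p.val_q_ne (hU _ (hz c).1)))) ht)

theorem form_eq_eval (φ : Fin C.M → Qb) :
    p.form φ = mdet (C.ev p.E) p.eE * mdet (C.ev p.D) p.eD *
      MvPolynomial.eval φ (linDet (p.cmat (kvec (C.ev p.E) p.eE) (kvec (C.ev p.D) p.eD))) := by
  rw [eval_linDet]; rfl

/-- The values of the form on the grid. -/
def vec (g : Fin C.M → Fin (C.rr + 1)) : Qb := p.form (gridPt g)

/-- Forms proportional on the grid are proportional. -/
theorem form_eq_of_vec {y : Pic0 Qb F} {p' : C.Pair y} {a : Qb}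
    (h : ∀ g, p'.vec g = a * p.vec g) (φ : Fin C.M → Qb) : p'.form φ = a * p.form φ := by
  have hne : mdet (C.ev p'.E) p'.eE * mdet (C.ev p'.D) p'.eD ≠ 0 :=
    mul_ne_zero p'.mdet_eE p'.mdet_eD
  rw [p'.form_eq_eval, p.form_eq_eval]
  rw [eval_eq_of_grid (c := p'.cmat (kvec (C.ev p'.E) p'.eE) (kvec (C.ev p'.D) p'.eD))
    (c' := p.cmat (kvec (C.ev p.E) p.eE) (kvec (C.ev p.D) p.eD))
    (a := a * (mdet (C.ev p.E) p.eE * mdet (C.ev p.D) p.eD) /
      (mdet (C.ev p'.E) p'.eE * mdet (C.ev p'.D) p'.eD)) (fun g => ?_) φ]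
  · rw [← mul_assoc, mul_div_cancel₀ _ hne]; ring
  · have h1 := h g
    rw [vec, vec, p'.form_eq_eval, p.form_eq_eval] at h1
    rw [div_mul_eq_mul_div, eq_div_iff hne]
    linear_combination h1

theorem exists_vec_ne_zero : ∃ g, p.vec g ≠ 0 := by
  by_contra hall
  push Not at hall
  obtain ⟨φ, hφ⟩ := p.exists_form_ne_zero
  exact hφ (by simpa using p.form_eq_of_vec (p' := p) (a := 0) (fun g => by simp [hall g]) φ)

end Pair

end GalCurve

end FA.MW

end
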