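import Fermat.Agent.MW.Curve.Eval
import Mathlib.Data.Finsupp.Interval

/-!
# Finitely many classes share a form

If the form of `y` is proportional to the form of `x` then the divisor of the cofactor functions at
fixed points leaves finitely many possibilities for the class `y`.
-/

set_option autoImplicit false
set_option linter.unusedSectionVars false
set_option linter.style.haveILetI false

noncomputable section

namespace FA.MW

open AlgebraicCurve FA.Curve

local notation "Qb" => AlgebraicClosure ℚ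

variable {F : Type} [Field F] [Algebra Qb F]

namespace GalCurve

variable {C : GalCurve F}

theorem cls_Dk : C.cls (C.Dk 1) = 0 := by
  rw [Dk, show Finsupp.single C.inf ((1 * C.m : ℕ) : ℤ) =
    ((1 * C.m : ℕ) : ℤ) • Finsupp.single C.inf (1 : ℤ) by simp, map_zsmul, C.cls_inf, smul_zero]

theorem le_ord_cofFun {P : Fin C.n → Place Qb F} (hP : Function.Injective P)
    {s : Fin (C.r1 + 1) → F} (hs : ∀ a v, AtLeast v (-C.Dk 1 v + C.divS (C.ptSet P hP) v) (s a))
    {z : Fin C.r1 → Place Qb F} (hzi : Function.Injective z) (hinf : ∀ c, z c ≠ C.inf)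
    (hd : ∀ c, z c ∉ C.ptSet P hP) (h0 : C.cofFun s z ≠ 0) (v : Place Qb F) :
    -C.Dk 1 v + C.divS (C.ptSet P hP) v + C.divS (C.ptSet z hzi) v ≤ v.ord (C.cofFun s z) := by
  classical
  have hsm : ∀ a, s a ∈ C.space C.m := fun a => C.mem_space_iff_Dk.2 fun v => (hs a v).mono (by
    rw [C.divS_apply]; split_ifs <;> omega)
  have h1 : AtLeast v (-C.Dk 1 v + C.divS (C.ptSet P hP) v) (C.cofFun s z) := by
    have h : C.cofFun s z ∈ riemannRochSpace (C.Dk 1 - C.divS (C.ptSet P hP)) :=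
      Submodule.sum_mem _ fun a _ => Submodule.smul_mem _ _ (mem_riemannRochSpace.2 fun u =>
        (hs a u).mono (by rw [Finsupp.sub_apply]; omega))
    exact (mem_riemannRochSpace.1 h v).mono (by rw [Finsupp.sub_apply]; omega)
  rw [atLeast_iff h0] at h1
  rw [C.divS_apply (C.ptSet z hzi)]
  split_ifs with hv
  · obtain ⟨c, rfl⟩ := C.mem_ptSet.1 hv
    have h2 := C.val_cofFun_self (s := s) (z := z)
      (fun c a => C.atLeast_space (hsm a) (hinf c)) c
    rw [C.val_eq_zero_iff (C.atLeast_space (C.cofFun_mem hsm z) (hinf c)), atLeast_iff h0] at h2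
    rw [C.divS_apply, if_neg (hd c), Dk, Finsupp.single_eq_of_ne (hinf c)]
    omega
  · omega

namespace Pair

variable {x : Pic0 Qb F} (p : C.Pair x)

/-- The form at the fixed points and one more. -/
theorem val_GS_GT {z : Fin C.r1 → Place Qb F} (hz : ∀ c, p.Away (z c)) {w : Place Qb F}
    (hw : p.Away w) :
    p.form (C.sumPt (Fin.snoc z w)) = mdet (C.ev p.E) p.eE * mdet (C.ev p.D) p.eD *
      (∏ c, (C.val (z c) (p.q : F))⁻¹) *
        C.val w (C.cofFun p.sG z * C.cofFun p.tG z / (p.q : F)) := by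
  have hS := C.atLeast_space (C.cofFun_mem p.sG_mem z) hw.2.2
  have hT := C.atLeast_space (C.cofFun_mem p.tG_mem z) hw.2.2
  rw [p.form_sumPt (Fin.lastCases (by simpa using hw) fun c => by simpa using hz c),
    p.val_div_q hw (by simpa using hS.mul hT), C.val_mul hS hT,
    C.val_cofFun fun a => C.atLeast_space (p.sG_mem a) hw.2.2,
    C.val_cofFun fun a => C.atLeast_space (p.tG_mem a) hw.2.2, Fin.prod_univ_castSucc]
  simp only [Fin.snoc_castSucc, Fin.snoc_last]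
  ring

theorem atLeast_GS_GT {z : Fin C.r1 → Place Qb F} {w : Place Qb F} (hw : p.Away w) :
    AtLeast w 0 (C.cofFun p.sG z * C.cofFun p.tG z / (p.q : F)) := by
  rw [div_eq_mul_inv]
  refine (((C.atLeast_space (C.cofFun_mem p.sG_mem z) hw.2.2).mul
    (C.atLeast_space (C.cofFun_mem p.tG_mem z) hw.2.2)).mul
      (atLeast_ord (v := w) (p.q : F)⁻¹)).mono ?_
  rw [w.ord_inv, p.ord_q_away hw]
  norm_num

theorem le_ord_sG (a : Fin (C.r1 + 1)) (v : Place Qb F) :
    AtLeast v (-C.Dk 1 v + C.divS (C.ptSet p.E p.injE) v) (p.sG a) :=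
  C.atLeast_fn p.injE (inKer_kvec _ p.mdet_eE _) v

theorem le_ord_tG (a : Fin (C.r1 + 1)) (v : Place Qb F) :
    AtLeast v (-C.Dk 1 v + C.divS (C.ptSet p.D p.injD) v) (p.tG a) :=
  C.atLeast_fn p.injD (inKer_kvec _ p.mdet_eD _) v

end Pair

/-- **Finitely many classes share a form.** -/
theorem exists_finite_fibre {x : Pic0 Qb F} (p : C.Pair x) :
    ∃ S : Finset (Pic0 Qb F), ∀ (y : Pic0 Qb F) (p' : C.Pair y) (a : Qb),
      (∀ g, p'.vec g = a * p.vec g) → y ∈ S := by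
  classical
  obtain ⟨U, -, hU⟩ := p.exists_away ∅
  obtain ⟨z, hz, hs, ht⟩ := C.exists_eval_points U C.r1 (fun b => p.sG b.castSucc)
    (fun b => p.tG b.castSucc) (fun b => p.sG_mem _) (fun b => p.tG_mem _)
    (p.li_sG.comp _ (Fin.castSucc_injective _)) (p.li_tG.comp _ (Fin.castSucc_injective _))
  have hzi := C.injective_of_evDet_ne hs
  have hS0 := C.cofFun_ne_zero p.li_sG hs
  have hT0 := C.cofFun_ne_zero p.li_tG ht
  set Zd := C.divS (C.ptSet z hzi)
  set N0 : Divisor Qb F := divOf C.hF (C.cofFun p.sG z) + divOf C.hF (C.cofFun p.tG z) -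
    divOf C.hF (p.q : F) + C.Dk 1 - Zd - Zd
  refine ⟨(Finset.Icc (0 : Divisor Qb F) N0).image fun R => -C.cls Zd - C.cls R,
    fun y p₀ a₀ h₀ => ?_⟩
  obtain ⟨p', hD', hE'⟩ := C.exists_pair y (C.ptSet z hzi)
  obtain ⟨b, hb, hbe⟩ := p₀.exists_scalar p'
  set a := b * a₀
  have h : ∀ φ, p'.form φ = a * p.form φ := fun φ => by
    rw [hbe, p.form_eq_of_vec h₀ φ, mul_assoc]
  have ha : a ≠ 0 := fun ha => by
    obtain ⟨φ, hφ⟩ := p'.exists_form_ne_zero
    exact hφ (by rw [h φ, ha, zero_mul])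
  have hz' : ∀ c, p'.Away (z c) := fun c => by
    refine ⟨fun hc => ?_, fun hc => ?_, (hz c).2⟩
    · obtain ⟨d, hd⟩ := C.mem_ptSet.1 hc
      exact hD' d (by rw [hd]; exact C.mem_ptSet.2 ⟨c, rfl⟩)
    · obtain ⟨d, hd⟩ := C.mem_ptSet.1 hc
      exact hE' d (by rw [hd]; exact C.mem_ptSet.2 ⟨c, rfl⟩)
  have hzp : ∀ c, p.Away (z c) := fun c => hU _ (hz c).1
  obtain ⟨U', hUU', hU'⟩ := p'.exists_away U
  set κ := mdet (C.ev p.E) p.eE * mdet (C.ev p.D) p.eD * ∏ c, (C.val (z c) (p.q : F))⁻¹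
  set κ' := mdet (C.ev p'.E) p'.eE * mdet (C.ev p'.D) p'.eD * ∏ c, (C.val (z c) (p'.q : F))⁻¹
  have hκ : κ ≠ 0 := mul_ne_zero (mul_ne_zero p.mdet_eE p.mdet_eD)
    (Finset.prod_ne_zero_iff.2 fun c _ => inv_ne_zero (p.val_q_ne (hzp c)))
  have hκ' : κ' ≠ 0 := mul_ne_zero (mul_ne_zero p'.mdet_eE p'.mdet_eD)
    (Finset.prod_ne_zero_iff.2 fun c _ => inv_ne_zero (p'.val_q_ne (hz' c)))
  set c₀ := a * κ / κ'
  have hc₀ : c₀ ≠ 0 := div_ne_zero (mul_ne_zero ha hκ) hκ'
  set Φ := C.cofFun p.sG z * C.cofFun p.tG z / (p.q : F)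
  set Φ' := C.cofFun p'.sG z * C.cofFun p'.tG z / (p'.q : F)
  have hΦ : Φ' = algebraMap Qb F c₀ * Φ := by
    refine C.eq_of_val U' fun w hw => ?_
    have h1 := p.atLeast_GS_GT (z := z) (hU w fun h => hw (hUU' h))
    refine ⟨p'.atLeast_GS_GT (hU' w hw), by simpa using (atLeast_algebraMap c₀).mul h1, ?_⟩
    rw [← Algebra.smul_def, C.val_smul h1]
    have h2 := h (C.sumPt (Fin.snoc z w))
    rw [p'.val_GS_GT hz' (hU' w hw), p.val_GS_GT hzp (hU w fun h => hw (hUU' h))] at h2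
    rw [div_mul_eq_mul_div, eq_div_iff hκ', mul_comm]
    linear_combination h2
  have hΦ0 : Φ ≠ 0 := div_ne_zero (mul_ne_zero hS0 hT0) p.q_ne'
  have hne : Φ' ≠ 0 := by
    rw [hΦ]; exact mul_ne_zero ((_root_.map_ne_zero _).2 hc₀) hΦ0
  obtain ⟨hS0', hT0'⟩ := mul_ne_zero_iff.1 (div_ne_zero_iff.1 hne).1
  have hord : ∀ v : Place Qb F, v.ord (C.cofFun p'.sG z) + v.ord (C.cofFun p'.tG z) - v.ord (p'.q : F) =
      v.ord (C.cofFun p.sG z) + v.ord (C.cofFun p.tG z) - v.ord (p.q : F) := fun v => by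
    have e1 : v.ord Φ' = v.ord Φ := by
      rw [hΦ, v.ord_mul ((_root_.map_ne_zero _).2 hc₀) hΦ0, FA.ModField.place_ord_algebraMap, zero_add]
    simp only [Φ, Φ', div_eq_mul_inv] at e1
    rw [v.ord_mul (mul_ne_zero hS0' hT0') (inv_ne_zero p'.q_ne'), v.ord_mul hS0' hT0', v.ord_inv,
      v.ord_mul (mul_ne_zero hS0 hT0) (inv_ne_zero p.q_ne'), v.ord_mul hS0 hT0, v.ord_inv] at e1
    omega
  set R : Divisor Qb F :=
    divOf C.hF (C.cofFun p'.tG z) + C.Dk 1 - C.divS (C.ptSet p'.D p'.injD) - Zd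
  have hdS := C.le_ord_cofFun p'.injE p'.le_ord_sG hzi (fun c => (hz c).2)
    (fun c => (hz' c).2.1) hS0'
  have hdT := C.le_ord_cofFun p'.injD p'.le_ord_tG hzi (fun c => (hz c).2)
    (fun c => (hz' c).1) hT0'
  refine Finset.mem_image.2 ⟨R, Finset.mem_Icc.2 ⟨Finsupp.le_def.2 fun v => ?_,
    Finsupp.le_def.2 fun v => ?_⟩, ?_⟩
  · have := hdT v
    simp only [R, Zd, Finsupp.coe_zero, Pi.zero_apply, Finsupp.sub_apply, Finsupp.add_apply,
      divOf_apply]
    omega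
  · have := hdS v
    have := hord v
    have := p'.ord_q v
    simp only [R, N0, Zd, Finsupp.sub_apply, Finsupp.add_apply, divOf_apply]
    omega
  · rw [map_sub, map_sub, map_add, C.cls_divOf hT0', cls_Dk, p'.repD.cls_eq]
    abel

end GalCurve

end FA.MW

end
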