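import Fermat.Agent.MW.Curve.Deriv

/-!
# Classes of degree zero and their representatives by reduced divisors
-/

set_option autoImplicit false
set_option linter.unusedSectionVars false
set_option linter.style.haveILetI false

noncomputable section

namespace FA.MW

open AlgebraicCurve FA.Curve

local notation "Qb" => AlgebraicClosure ℚ

variable {F : Type} [Field F] [Algebra Qb F]

namespace GalCurve

variable (C : GalCurve F)

/-- The class of `E - deg E • inf`. -/
def cls : Divisor Qb F →+ Pic0 Qb F where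
  toFun E := Pic0.mk ⟨E - Divisor.degree E • Finsupp.single C.inf 1, by
    rw [Divisor.mem_degZero, map_sub, map_zsmul, C.degree_single_one, smul_eq_mul, mul_one, sub_self]⟩
  map_zero' := by
    rw [← Pic0.mk_zero]
    exact congrArg Pic0.mk (Subtype.ext (by simp))
  map_add' E E' := by
    rw [← Pic0.mk_add]
    refine congrArg Pic0.mk (Subtype.ext ?_)
    show (E + E') - Divisor.degree (E + E') • Finsupp.single C.inf (1 : ℤ) = (E - _) + (E' - _)
    simp only [map_add, add_smul]
    abel

theorem cls_of_degree_zero (E : Divisor.degZero (K := Qb) (F := F)) :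
    C.cls (E : Divisor Qb F) = Pic0.mk E := by
  refine congrArg Pic0.mk (Subtype.ext ?_)
  show (E : Divisor Qb F) - _ = _
  rw [Divisor.mem_degZero.1 E.2, zero_smul, sub_zero]

theorem cls_inf : C.cls (Finsupp.single C.inf 1) = 0 := by
  rw [← Pic0.mk_zero]
  refine congrArg Pic0.mk (Subtype.ext ?_)
  show Finsupp.single C.inf (1 : ℤ) - _ = 0
  rw [C.degree_single_one, one_smul, sub_self]

theorem cls_eq_zero_iff {E : Divisor Qb F} :
    C.cls E = 0 ↔ ∃ f : F, f ≠ 0 ∧ E = divOf C.hF f + Divisor.degree E • Finsupp.single C.inf 1 := by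
  refine (QuotientAddGroup.eq_zero_iff _).trans ?_
  rw [AddSubgroup.mem_addSubgroupOf, Divisor.mem_principal]
  constructor
  · rintro ⟨f, hf, h⟩
    refine ⟨f, hf, ?_⟩
    have h' : E - Divisor.degree E • Finsupp.single C.inf 1 = divOf C.hF f :=
      Finsupp.ext fun v => by rw [divOf_apply]; exact h v
    rw [← h', sub_add_cancel]
  · rintro ⟨f, hf, h⟩
    refine ⟨f, hf, fun v => ?_⟩
    show (E - Divisor.degree E • Finsupp.single C.inf (1 : ℤ) : Divisor Qb F) v = v.ord f
    rw [sub_eq_of_eq_add h, divOf_apply]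

theorem cls_divOf {f : F} (hf : f ≠ 0) : C.cls (divOf C.hF f) = 0 :=
  C.cls_eq_zero_iff.2 ⟨f, hf, by rw [degree_divOf, zero_smul, add_zero]⟩

/-- The sum of a finite set of places. -/
def divS (_C : GalCurve F) (Z : Finset (Place Qb F)) : Divisor Qb F := ∑ v ∈ Z, Finsupp.single v 1

open scoped Classical in
theorem divS_apply (Z : Finset (Place Qb F)) (v : Place Qb F) :
    C.divS Z v = if v ∈ Z then 1 else 0 := by
  rw [divS, Finset.sum_apply']
  simp [Finsupp.single_apply]

theorem degree_divS (Z : Finset (Place Qb F)) : Divisor.degree (C.divS Z) = Z.card := by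
  simp [divS, map_sum, C.hF.deg_eq_one]

theorem divS_union [DecidableEq (Place Qb F)] {A B : Finset (Place Qb F)} (h : Disjoint A B) :
    C.divS (A ∪ B) = C.divS A + C.divS B := Finset.sum_union h

/-- `D` is a reduced divisor of degree `n` off `sigma` in the class `x`. -/
structure IsRep (x : Pic0 Qb F) (D : Finset (Place Qb F)) : Prop where
  card : D.card = C.n
  notMem : ∀ P ∈ D, P ∉ C.sigma
  cls_eq : C.cls (C.divS D) = x

/-- **Representatives avoiding any finite set.** -/
theorem exists_rep (x : Pic0 Qb F) (T : Finset (Place Qb F)) :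
    ∃ D, C.IsRep x D ∧ Disjoint D T := by
  classical
  obtain ⟨D₀, rfl⟩ := Pic0.mk_surjective x
  set E₀ : Divisor Qb F := (D₀ : Divisor Qb F) + (C.n : ℤ) • Finsupp.single C.inf 1
  have hdeg₀ : Divisor.degree E₀ = (C.n : ℤ) := by
    rw [map_add, Divisor.mem_degZero.1 D₀.2, map_zsmul, C.degree_single_one, smul_eq_mul, mul_one,
      zero_add]
  have hn := C.thr_lt_n
  obtain ⟨f, hf, hf0, -⟩ := C.exists_exact E₀ ∅ (by omega)
  set E : Divisor Qb F := E₀ + divOf C.hF f
  have hE0 : ∀ v, 0 ≤ E v := fun v => by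
    have := (atLeast_iff hf0).1 (mem_riemannRochSpace.1 hf v)
    simp only [E, Finsupp.add_apply, divOf_apply]; omega
  have hdeg : Divisor.degree E = (C.n : ℤ) := by rw [map_add, hdeg₀, degree_divOf, add_zero]
  obtain ⟨h, hh, hh0, hhE⟩ := C.exists_exact E E.support (by omega)
  have hord : ∀ v, E v ≠ 0 → v.ord h = -E v := fun v hv => hhE v (Finsupp.mem_support_iff.2 hv)
  have hreg : ∀ v, E v = 0 → AtLeast v 0 h := fun v hv => by
    simpa [hv] using mem_riemannRochSpace.1 hh v
  obtain ⟨v₀, hv₀⟩ : ∃ v, E v ≠ 0 := by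
    by_contra hall
    push Not at hall
    rw [show E = 0 from Finsupp.ext fun v => hall v, map_zero] at hdeg
    omega
  obtain ⟨hδ0, -⟩ := C.ord_δ v₀ h (by rw [hord v₀ hv₀]; omega)
  set B := T ∪ C.sigma ∪ (finite_zeros C.hF (C.δ h)).toFinset
  obtain ⟨c, hc⟩ := (B.image fun v => C.val v h).finite_toSet.infinite_compl.nonempty
  simp only [Set.mem_compl_iff, SetLike.mem_coe, Finset.mem_image, not_exists, not_and] at hc
  set g := h - algebraMap Qb F c with hg
  have hg0 : g ≠ 0 := by
    intro h0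
    have := hord v₀ hv₀
    rw [sub_eq_zero.1 h0, FA.ModField.place_ord_algebraMap] at this
    omega
  set Z := (finite_zeros C.hF g).toFinset
  have hmemZ : ∀ v, v ∈ Z ↔ 0 < v.ord g := fun v => Set.Finite.mem_toFinset _
  have hpole : ∀ v, E v ≠ 0 → v.ord g = -E v := fun v hv => by
    have h1 := hord v hv
    have h2 := hE0 v
    obtain ⟨-, h3⟩ := ord_add_eq_left (v := v) hh0 (g := -algebraMap Qb F c)
      ((atLeast_algebraMap c).neg.mono (by omega))
    rw [← sub_eq_add_neg] at h3
    rw [hg, h3, h1]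
  have hZE : ∀ v ∈ Z, E v = 0 ∧ v ∉ B := fun v hv => by
    have hpos := (hmemZ v).1 hv
    have h1 : E v = 0 := by
      by_contra hne
      have := hpole v hne
      have := hE0 v
      omega
    refine ⟨h1, fun hB => hc v hB (C.val_eq ?_)⟩
    exact Or.inr (by show (1 : ℤ) ≤ v.ord g; omega)
  have hsimple : ∀ v ∈ Z, v.ord g = 1 := fun v hv => by
    have hpos := (hmemZ v).1 hv
    obtain ⟨-, hB⟩ := hZE v hv
    simp only [B, Finset.mem_union, Set.Finite.mem_toFinset, not_or, Set.mem_ofPred_eq, not_lt] at hB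
    obtain ⟨-, ho⟩ := C.ord_δ v g (by omega)
    have e : C.δ g = C.δ h := by simp [hg]
    rw [e, C.W_eq_zero hB.1.2] at ho
    omega
  have hdiv : divOf C.hF g = C.divS Z - E := Finsupp.ext fun v => by
    rw [divOf_apply, Finsupp.sub_apply, C.divS_apply]
    by_cases hv : v ∈ Z
    · rw [if_pos hv, hsimple v hv, (hZE v hv).1, sub_zero]
    rw [if_neg hv, zero_sub]
    rcases eq_or_ne (E v) 0 with h0 | h0
    · rw [h0, neg_zero]
      have h1 : AtLeast v 0 g := (hreg v h0).sub (atLeast_algebraMap c)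
      have := (atLeast_iff hg0).1 h1
      have h2 : ¬ 0 < v.ord g := fun hp => hv ((hmemZ v).2 hp)
      omega
    · exact hpole v h0
  refine ⟨Z, ⟨?_, fun v hv => ?_, ?_⟩, Finset.disjoint_left.2 fun v hv hvT => (hZE v hv).2 ?_⟩
  · have h1 := degree_divOf C.hF g
    rw [hdiv, map_sub, C.degree_divS, hdeg] at h1
    omega
  · have := (hZE v hv).2
    simp only [B, Finset.mem_union, not_or] at this
    exact this.1.2
  · have e : C.divS Z = (D₀ : Divisor Qb F) + (C.n : ℤ) • Finsupp.single C.inf 1 +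
        divOf C.hF f + divOf C.hF g := by
      rw [hdiv]; simp only [E, E₀]; abel
    rw [e, map_add, map_add, map_add, map_zsmul, C.cls_inf, C.cls_divOf hf0, C.cls_divOf hg0,
      C.cls_of_degree_zero]
    simp
  · simp [B, hvT]

/-- A reduced divisor of class zero and degree `k * m` is the zero set of a function. -/
theorem exists_zero_fun {k : ℕ} {Z : Finset (Place Qb F)} (hcard : Z.card = k * C.m)
    (hcls : C.cls (C.divS Z) = 0) :
    ∃ g : C.space (k * C.m), g ≠ 0 ∧ ∀ P ∈ Z, C.gv k P (g : F) = 0 := by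
  classical
  obtain ⟨f, hf0, hf⟩ := C.cls_eq_zero_iff.1 hcls
  rw [C.degree_divS, hcard] at hf
  have hord : ∀ v, v.ord f = C.divS Z v - C.Dk k v := fun v => by
    have := congrArg (fun D : Divisor Qb F => D v) hf
    simp only [Finsupp.add_apply, divOf_apply, Finsupp.smul_apply, smul_eq_mul] at this
    rw [this, Dk]
    simp only [Finsupp.single_apply]
    split_ifs <;> simp
  have hmem : f ∈ C.space (k * C.m) := by
    show f ∈ riemannRochSpace (C.Dk k)
    rw [mem_riemannRochSpace]
    intro v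
    refine Or.inr ?_
    rw [hord, C.divS_apply]
    split_ifs <;> omega
  refine ⟨⟨f, hmem⟩, fun h => hf0 (congrArg Subtype.val h), fun P hP => ?_⟩
  show C.val P (f * C.scale P ^ k) = 0
  rw [C.val_eq_zero_iff (C.atLeast_mul_scale hmem P)]
  refine Or.inr ?_
  rw [P.ord_mul hf0 (pow_ne_zero _ (C.scale_ne_zero P)), C.ord_scale_pow, hord, C.divS_apply,
    if_pos hP]
  omega

theorem cls_gal (σ : Qb ≃ₐ[ℚ] Qb) (E : Divisor Qb F) : C.cls (C.gal σ • E) = C.gal σ • C.cls E := by
  show _ = C.gal σ • Pic0.mk _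
  rw [SemilinearAut.pic0_smul_mk]
  refine congrArg Pic0.mk (Subtype.ext ?_)
  simp only [SemilinearAut.coe_degZeroSMulHom, SemilinearAut.degree_smul, smul_sub]
  congr 1
  rw [show C.gal σ • (Divisor.degree E • Finsupp.single C.inf (1 : ℤ)) =
    Divisor.degree E • (C.gal σ • Finsupp.single C.inf (1 : ℤ)) from
      map_zsmul (DistribSMul.toAddMonoidHom (Divisor Qb F) (C.gal σ)) _ _,
    SemilinearAut.smul_single, C.gal_inf]

end GalCurve

end FA.MW

end
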