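import Fermat.Agent.MW.Minors
import Fermat.Agent.MW.Curve.Reps
import Fermat.Agent.MW.Relations

/-!
# The form attached to a class of degree zero

For representatives `D` of `x` and `E` of `-x` and `q` with zeros `D + E`, the form is
`φ ↦ det φ (s a * t b / q)` for bases of the functions vanishing on `E`, resp. `D`, normalised by
the minors of the values at the points.
-/

set_option autoImplicit false
set_option linter.unusedSectionVars false
set_option linter.style.haveILetI false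

noncomputable section

namespace FA.MW

open AlgebraicCurve FA.Curve

local notation "Qb" => AlgebraicClosure ℚ

variable {F : Type} [Field F] [Algebra Qb F]

namespace GalCurve

variable (C : GalCurve F)

/-- The degree of the form. -/
def rr : ℕ := C.M - C.n

theorem n_add_rr : C.n + C.rr = C.M := by
  have := C.M_eq; have := C.genus_lt_n; unfold rr m at *; omega

/-- The function with given coordinates. -/
def fn (c : Fin C.M → Qb) : F := ∑ i, c i • C.f i

theorem fn_mem (c : Fin C.M → Qb) : C.fn c ∈ C.space C.m := C.mem_space_iff_exists.2 ⟨c, rfl⟩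

theorem fn_eq_zero {c : Fin C.M → Qb} : C.fn c = 0 ↔ c = 0 :=
  ⟨fun h => funext (Fintype.linearIndependent_iff.1 C.linearIndependent_f c h),
    fun h => by simp [h, fn]⟩

theorem fn_sum {τ : Type} (s : Finset τ) (a : τ → Qb) (c : τ → Fin C.M → Qb) :
    C.fn (fun i => ∑ b ∈ s, a b * c b i) = ∑ b ∈ s, a b • C.fn (c b) := by
  simp only [fn, Finset.sum_smul, Finset.smul_sum, smul_smul]
  exact Finset.sum_comm

open scoped Classical in
/-- The coordinates of a function. -/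
def crd (g : F) : Fin C.M → Qb :=
  if h : g ∈ C.space C.m then fun i => C.basis.repr ⟨g, h⟩ i else 0

theorem fn_crd {g : F} (h : g ∈ C.space C.m) : C.fn (C.crd g) = g := by
  rw [crd, dif_pos h]
  have := congrArg Subtype.val (C.basis.sum_repr ⟨g, h⟩)
  simpa [fn, f, -Module.Basis.sum_repr] using this

theorem fn_injective {c c' : Fin C.M → Qb} (h : C.fn c = C.fn c') : c = c' := by
  rw [← sub_eq_zero, ← C.fn_eq_zero]
  simp only [fn, Pi.sub_apply, sub_smul, Finset.sum_sub_distrib]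
  exact sub_eq_zero.2 h

theorem crd_sum {τ : Type} (s : Finset τ) (a : τ → Qb) {g : τ → F}
    (h : ∀ b, g b ∈ C.space C.m) :
    C.crd (∑ b ∈ s, a b • g b) = fun i => ∑ b ∈ s, a b * C.crd (g b) i := by
  refine C.fn_injective ?_
  rw [C.fn_crd (Submodule.sum_mem _ fun b _ => Submodule.smul_mem _ _ (h b)), C.fn_sum]
  exact Finset.sum_congr rfl fun b _ => by rw [C.fn_crd (h b)]

theorem crd_smul {g : F} (h : g ∈ C.space C.m) (a : Qb) :
    C.crd (a • g) = fun i => a * C.crd g i := by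
  have := C.crd_sum (Finset.univ : Finset Unit) (fun _ => a) (g := fun _ => g) fun _ => h
  simpa using this

theorem gal_fn (σ : Qb ≃ₐ[ℚ] Qb) (c : Fin C.M → Qb) :
    C.gal σ • C.fn c = C.fn fun i => σ (c i) := by
  simp only [fn, Finset.smul_sum, C.gal_smul, C.gal_f]

theorem crd_gal (σ : Qb ≃ₐ[ℚ] Qb) {g : F} (h : g ∈ C.space C.m) :
    C.crd (C.gal σ • g) = fun i => σ (C.crd g i) := by
  refine C.fn_injective ?_
  rw [C.fn_crd (C.gal_mem_space σ h), ← C.gal_fn, C.fn_crd h]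

/-- The values of the frame at a tuple of points. -/
def ev {d : ℕ} (P : Fin d → Place Qb F) : Matrix (Fin d) (Fin C.M) Qb :=
  Matrix.of fun a i => C.fv (P a) i

theorem val_fn (c : Fin C.M → Qb) (P : Place Qb F) :
    C.val P (C.fn c * C.scale P) = ∑ i, C.fv P i * c i := by
  rw [fn, C.val_sum_mul_scale]; exact Finset.sum_congr rfl fun i _ => mul_comm _ _

theorem inKer_iff {d : ℕ} {P : Fin d → Place Qb F} {c : Fin C.M → Qb} :
    InKer (C.ev P) c ↔ ∀ a, AtLeast (P a) (-C.Dk 1 (P a) + 1) (C.fn c) := by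
  refine forall_congr' fun a => ?_
  show ∑ i, C.fv (P a) i * c i = 0 ↔ _
  rw [← C.val_fn, C.val_eq_zero_iff (C.atLeast_mul_scale_one (C.fn_mem c) _)]
  rcases eq_or_ne (C.fn c) 0 with h | h
  · simp [h, atLeast_zero]
  rw [atLeast_iff (mul_ne_zero h (C.scale_ne_zero _)), atLeast_iff h,
    (P a).ord_mul h (C.scale_ne_zero _), C.ord_scale]
  omega

/-- The set of a tuple of points. -/
def ptSet (_C : GalCurve F) {d : ℕ} (P : Fin d → Place Qb F) (h : Function.Injective P) :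
    Finset (Place Qb F) := Finset.univ.map ⟨P, h⟩

theorem mem_ptSet {d : ℕ} {P : Fin d → Place Qb F} {h : Function.Injective P} {v : Place Qb F} :
    v ∈ C.ptSet P h ↔ ∃ a, P a = v := by simp [ptSet]

theorem atLeast_fn {d : ℕ} {P : Fin d → Place Qb F} (hP : Function.Injective P) {c : Fin C.M → Qb}
    (hc : InKer (C.ev P) c) (v : Place Qb F) :
    AtLeast v (-C.Dk 1 v + C.divS (C.ptSet P hP) v) (C.fn c) := by
  classical
  rw [C.divS_apply]
  split_ifs with h
  · obtain ⟨a, rfl⟩ := C.mem_ptSet.1 h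
    exact C.inKer_iff.1 hc a
  · rw [add_zero]
    exact mem_riemannRochSpace.1 (show C.fn c ∈ riemannRochSpace (C.Dk 1) by
      simpa [space, Dk] using C.fn_mem c) v

theorem mem_space_iff_Dk {g : F} : g ∈ C.space C.m ↔ ∀ v, AtLeast v (-C.Dk 1 v) g := by
  rw [← mem_riemannRochSpace]; simp [space, Dk]

theorem inKer_of_atLeast {d : ℕ} {P : Fin d → Place Qb F} (hP : Function.Injective P) {g : F}
    (h : ∀ v, AtLeast v (-C.Dk 1 v + C.divS (C.ptSet P hP) v) g) :
    g ∈ C.space C.m ∧ InKer (C.ev P) (C.crd g) := by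
  classical
  have hg : g ∈ C.space C.m := C.mem_space_iff_Dk.2 fun v => (h v).mono (by
    rw [C.divS_apply]; split_ifs <;> omega)
  refine ⟨hg, C.inKer_iff.2 fun a => ?_⟩
  have h1 := h (P a)
  rwa [C.divS_apply, if_pos (C.mem_ptSet.2 ⟨a, rfl⟩), ← C.fn_crd hg] at h1

theorem exists_mdet_ev_ne_zero {P : Fin C.n → Place Qb F} (hP : Function.Injective P) :
    ∃ e : Fin C.n ⊕ Fin C.rr ≃ Fin C.M, mdet (C.ev P) e ≠ 0 := by
  classical
  refine exists_mdet_ne_zero (C.ev P) C.n_add_rr fun a => ?_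
  set S := (C.ptSet P hP).erase (P a)
  have hcard : S.card ≤ C.n := (Finset.card_erase_le).trans (by simp [ptSet])
  obtain ⟨g, hg, hg0, hgP⟩ := C.exists_exact (C.Dk 1 - C.divS S) {P a} (by
    rw [map_sub, C.degree_Dk, C.degree_divS]
    have := C.thr_lt_n; have : C.m = 2 * C.n := rfl
    omega)
  have hgm : g ∈ C.space C.m := C.mem_space_iff_Dk.2 fun v =>
    (mem_riemannRochSpace.1 hg v).mono (by
      rw [Finsupp.sub_apply, C.divS_apply]; split_ifs <;> omega)
  have hzero : ∀ b, b ≠ a → C.val (P b) (g * C.scale (P b)) = 0 := fun b hb => by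
    rw [C.val_eq_zero_iff (C.atLeast_mul_scale_one hgm _)]
    have hmem : P b ∈ S := Finset.mem_erase.2 ⟨fun h => hb (hP h), C.mem_ptSet.2 ⟨b, rfl⟩⟩
    have h1 := mem_riemannRochSpace.1 hg (P b)
    rw [Finsupp.sub_apply, C.divS_apply, if_pos hmem] at h1
    exact (h1.mul (Or.inr (C.ord_scale (P b)).ge : AtLeast (P b) (C.Dk 1 (P b)) (C.scale (P b)))).mono
      (by omega)
  have hne : C.val (P a) (g * C.scale (P a)) ≠ 0 := fun h => by
    rw [C.val_eq_zero_iff (C.atLeast_mul_scale_one hgm _),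
      atLeast_iff (mul_ne_zero hg0 (C.scale_ne_zero _)), (P a).ord_mul hg0 (C.scale_ne_zero _),
      hgP _ (Finset.mem_singleton_self _), C.ord_scale, Finsupp.sub_apply, C.divS_apply,
      if_neg (Finset.notMem_erase _ _)] at h
    omega
  refine ⟨fun i => (C.val (P a) (g * C.scale (P a)))⁻¹ * C.crd g i, fun b => ?_⟩
  have e1 : ∀ b, ∑ i, C.ev P b i * C.crd g i = C.val (P b) (g * C.scale (P b)) := fun b => by
    conv_rhs => rw [← C.fn_crd hgm, C.val_fn]
    rfl
  rw [Finset.sum_congr rfl fun i _ => show C.ev P b i * ((C.val (P a) (g * C.scale (P a)))⁻¹ * C.crd g i) =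
    (C.val (P a) (g * C.scale (P a)))⁻¹ * (C.ev P b i * C.crd g i) by ring, ← Finset.mul_sum, e1]
  rcases eq_or_ne b a with rfl | h
  · rw [if_pos rfl, inv_mul_cancel₀ hne]
  · rw [if_neg h, hzero b h, mul_zero]

/-- Representatives of `x` and `-x` and a function vanishing on both. -/
structure Pair (x : Pic0 Qb F) where
  D : Fin C.n → Place Qb F
  E : Fin C.n → Place Qb F
  injD : Function.Injective D
  injE : Function.Injective E
  repD : C.IsRep x (C.ptSet D injD)
  repE : C.IsRep (-x) (C.ptSet E injE)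
  disj : ∀ a b, D a ≠ E b
  q : C.space (1 * C.m)
  q_ne : q ≠ 0
  q_D : ∀ a, C.gv 1 (D a) (q : F) = 0
  q_E : ∀ a, C.gv 1 (E a) (q : F) = 0

theorem exists_pair (x : Pic0 Qb F) (T : Finset (Place Qb F)) :
    ∃ p : C.Pair x, (∀ a, p.D a ∉ T) ∧ ∀ a, p.E a ∉ T := by
  classical
  obtain ⟨A, hA, hAT⟩ := C.exists_rep x T
  obtain ⟨B, hB, hBT⟩ := C.exists_rep (-x) (A ∪ T)
  rw [Finset.disjoint_union_right] at hBT
  obtain ⟨g, hg, hz⟩ := C.exists_zero_fun (k := 1) (Z := A ∪ B)
    (by rw [Finset.card_union_of_disjoint hBT.1.symm, hA.card, hB.card, one_mul, m, two_mul])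
    (by rw [C.divS_union hBT.1.symm, map_add, hA.cls_eq, hB.cls_eq, add_neg_cancel])
  let φ : Fin C.n ≃ A := (A.equivFinOfCardEq hA.card).symm
  let ψ : Fin C.n ≃ B := (B.equivFinOfCardEq hB.card).symm
  have hφ : Function.Injective fun a => (φ a : Place Qb F) := Subtype.val_injective.comp φ.injective
  have hψ : Function.Injective fun a => (ψ a : Place Qb F) := Subtype.val_injective.comp ψ.injective
  have eA : C.ptSet _ hφ = A := Finset.ext fun v => C.mem_ptSet.trans
    ⟨fun ⟨a, ha⟩ => ha ▸ (φ a).2, fun hv => ⟨φ.symm ⟨v, hv⟩, by simp⟩⟩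
  have eB : C.ptSet _ hψ = B := Finset.ext fun v => C.mem_ptSet.trans
    ⟨fun ⟨a, ha⟩ => ha ▸ (ψ a).2, fun hv => ⟨ψ.symm ⟨v, hv⟩, by simp⟩⟩
  exact ⟨⟨_, _, hφ, hψ, eA.symm ▸ hA, eB.symm ▸ hB, fun a b h =>
    Finset.disjoint_left.1 hBT.1.symm (φ a).2 (by
      show (φ a : Place Qb F) ∈ B
      rw [show (φ a : Place Qb F) = ψ b from h]; exact (ψ b).2),
    g, hg, fun a => hz _ (Finset.mem_union_left _ (φ a).2),
    fun a => hz _ (Finset.mem_union_right _ (ψ a).2)⟩,
    fun a h => Finset.disjoint_left.1 hAT (φ a).2 h,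
    fun a h => Finset.disjoint_left.1 hBT.2 (ψ a).2 h⟩

variable {C}

namespace Pair

variable {x : Pic0 Qb F} (p : C.Pair x)

theorem q_ne' : (p.q : F) ≠ 0 := fun h => p.q_ne (Subtype.ext h)

theorem q_mem : (p.q : F) ∈ C.space C.m := by
  simpa only [Nat.one_mul] using (p.q.2 : (p.q : F) ∈ C.space (1 * C.m))

theorem disjoint : Disjoint (C.ptSet p.D p.injD) (C.ptSet p.E p.injE) :=
  Finset.disjoint_left.2 fun v hv hv' => by
    obtain ⟨a, rfl⟩ := C.mem_ptSet.1 hv
    obtain ⟨b, hb⟩ := C.mem_ptSet.1 hv'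
    exact p.disj a b hb.symm

theorem notMem_D (a : Fin C.n) : p.D a ∉ C.sigma := p.repD.notMem _ (C.mem_ptSet.2 ⟨a, rfl⟩)

theorem notMem_E (a : Fin C.n) : p.E a ∉ C.sigma := p.repE.notMem _ (C.mem_ptSet.2 ⟨a, rfl⟩)

theorem ord_q (v : Place Qb F) :
    v.ord (p.q : F) + C.Dk 1 v =
      C.divS (C.ptSet p.D p.injD) v + C.divS (C.ptSet p.E p.injE) v := by
  classical
  have h := C.ord_of_zeros (Z := C.ptSet p.D p.injD ∪ C.ptSet p.E p.injE)
    (by rw [Finset.card_union_of_disjoint p.disjoint, p.repD.card, p.repE.card, one_mul, m, two_mul])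
    p.q_ne (fun P hP => by
      rcases Finset.mem_union.1 hP with h | h <;> obtain ⟨a, rfl⟩ := C.mem_ptSet.1 h
      · exact p.q_D a
      · exact p.q_E a) v
  rwa [← C.divS_apply, C.divS_union p.disjoint, Finsupp.add_apply] at h

theorem prod_mem {c c' : Fin C.M → Qb} (hc : InKer (C.ev p.E) c) (hc' : InKer (C.ev p.D) c') :
    C.fn c * C.fn c' / (p.q : F) ∈ C.space C.m := by
  refine C.mem_space_iff_Dk.2 fun v => ?_
  rw [div_eq_mul_inv]
  refine (((C.atLeast_fn p.injE hc v).mul (C.atLeast_fn p.injD hc' v)).mul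
    (atLeast_ord (v := v) ((p.q : F))⁻¹)).mono ?_
  rw [v.ord_inv]
  have := p.ord_q v
  omega

/-- The coefficients of the form. -/
def cmat (S T : Fin C.rr → Fin C.M → Qb) : Fin C.rr → Fin C.rr → Fin C.M → Qb :=
  fun a b => C.crd (C.fn (S a) * C.fn (T b) / (p.q : F))

/-- `det φ (s a * t b / q)`. -/
def formVal (S T : Fin C.rr → Fin C.M → Qb) (φ : Fin C.M → Qb) : Qb :=
  (Matrix.of fun a b => ∑ i, φ i * p.cmat S T a b i).det

theorem formVal_comb {S T : Fin C.rr → Fin C.M → Qb} (hS : ∀ a, InKer (C.ev p.E) (S a))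
    (hT : ∀ b, InKer (C.ev p.D) (T b)) (A B : Matrix (Fin C.rr) (Fin C.rr) Qb) (φ : Fin C.M → Qb) :
    p.formVal (fun a i => ∑ c, A a c * S c i) (fun b i => ∑ d, B b d * T d i) φ =
      A.det * B.det * p.formVal S T φ := by
  have e : ∀ a b, p.cmat (fun a i => ∑ c, A a c * S c i) (fun b i => ∑ d, B b d * T d i) a b =
      fun i => ∑ cd : Fin C.rr × Fin C.rr, A a cd.1 * B b cd.2 * p.cmat S T cd.1 cd.2 i := fun a b => by
    unfold cmat
    rw [C.fn_sum, C.fn_sum, ← C.crd_sum _ _ fun cd : Fin C.rr × Fin C.rr => p.prod_mem (hS cd.1) (hT cd.2)]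
    congr 1
    rw [Finset.sum_mul_sum, Finset.sum_div, Fintype.sum_prod_type]
    refine Finset.sum_congr rfl fun c _ => ?_
    rw [Finset.sum_div]
    refine Finset.sum_congr rfl fun d _ => ?_
    rw [Algebra.smul_def, Algebra.smul_def, Algebra.smul_def, map_mul]
    ring
  have h : (Matrix.of fun a b => ∑ i, φ i *
      p.cmat (fun a i => ∑ c, A a c * S c i) (fun b i => ∑ d, B b d * T d i) a b i) =
      A * (Matrix.of fun a b => ∑ i, φ i * p.cmat S T a b i) * B.transpose := by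
    ext a b
    simp only [Matrix.of_apply, Matrix.mul_apply, Matrix.transpose_apply, e, Finset.mul_sum,
      Finset.sum_mul, Fintype.sum_prod_type]
    rw [Finset.sum_comm]
    conv_lhs => arg 2; ext c; rw [Finset.sum_comm]
    rw [Finset.sum_comm]
    exact Finset.sum_congr rfl fun c _ => Finset.sum_congr rfl fun d _ =>
      Finset.sum_congr rfl fun i _ => by ring
  rw [formVal, h, Matrix.det_mul, Matrix.det_mul, Matrix.det_transpose]
  unfold formVal
  ring

theorem formVal_eq_rdet {eE eD : Fin C.n ⊕ Fin C.rr ≃ Fin C.M} (hE : mdet (C.ev p.E) eE ≠ 0)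
    (hD : mdet (C.ev p.D) eD ≠ 0) {S T : Fin C.rr → Fin C.M → Qb}
    (hS : ∀ a, InKer (C.ev p.E) (S a)) (hT : ∀ b, InKer (C.ev p.D) (T b)) (φ : Fin C.M → Qb) :
    p.formVal S T φ =
      rdet eE S * rdet eD T * p.formVal (kvec (C.ev p.E) eE) (kvec (C.ev p.D) eD) φ := by
  have h1 : S = fun a i => ∑ c, (Matrix.of fun a b => S a (eE (Sum.inr b))) a c *
      kvec (C.ev p.E) eE c i := funext fun a => eq_sum_kvec _ hE (hS a)
  have h2 : T = fun a i => ∑ c, (Matrix.of fun a b => T a (eD (Sum.inr b))) a c *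
      kvec (C.ev p.D) eD c i := funext fun a => eq_sum_kvec _ hD (hT a)
  conv_lhs => rw [h1, h2]
  exact p.formVal_comb (inKer_kvec _ hE) (inKer_kvec _ hD) _ _ φ

/-- The chosen minor at `D`. -/
def eD : Fin C.n ⊕ Fin C.rr ≃ Fin C.M := (C.exists_mdet_ev_ne_zero p.injD).choose

/-- The chosen minor at `E`. -/
def eE : Fin C.n ⊕ Fin C.rr ≃ Fin C.M := (C.exists_mdet_ev_ne_zero p.injE).choose

theorem mdet_eD : mdet (C.ev p.D) p.eD ≠ 0 := (C.exists_mdet_ev_ne_zero p.injD).choose_spec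

theorem mdet_eE : mdet (C.ev p.E) p.eE ≠ 0 := (C.exists_mdet_ev_ne_zero p.injE).choose_spec

/-- **The form.** -/
def form (φ : Fin C.M → Qb) : Qb :=
  mdet (C.ev p.E) p.eE * mdet (C.ev p.D) p.eD *
    p.formVal (kvec (C.ev p.E) p.eE) (kvec (C.ev p.D) p.eD) φ

theorem formVal_eq_form {S T : Fin C.rr → Fin C.M → Qb}
    (hS : ∀ a, InKer (C.ev p.E) (S a)) (hT : ∀ b, InKer (C.ev p.D) (T b)) (φ : Fin C.M → Qb) :
    p.formVal S T φ = rdet p.eE S / mdet (C.ev p.E) p.eE *
      (rdet p.eD T / mdet (C.ev p.D) p.eD) * p.form φ := by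
  rw [p.formVal_eq_rdet p.mdet_eE p.mdet_eD hS hT, form]
  field_simp [p.mdet_eE, p.mdet_eD]

/-- Other minors give the same form up to sign. -/
theorem exists_sign (eE eD : Fin C.n ⊕ Fin C.rr ≃ Fin C.M) (hE : mdet (C.ev p.E) eE ≠ 0)
    (hD : mdet (C.ev p.D) eD ≠ 0) :
    ∃ ε : Qb, ε * ε = 1 ∧ ∀ φ, p.form φ = ε * (mdet (C.ev p.E) eE * mdet (C.ev p.D) eD *
      p.formVal (kvec (C.ev p.E) eE) (kvec (C.ev p.D) eD) φ) := by
  obtain ⟨a, ha, hA⟩ := exists_mdet_mul_rdet (C.ev p.E) p.eE eE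
  obtain ⟨b, hb, hB⟩ := exists_mdet_mul_rdet (C.ev p.D) p.eD eD
  have h1 := hA _ (inKer_kvec _ hE)
  have h2 := hB _ (inKer_kvec _ hD)
  rw [exists_rdet_eq, mul_one] at h1 h2
  refine ⟨a * b, by linear_combination b * b * ha + hb, fun φ => ?_⟩
  rw [form, p.formVal_eq_rdet p.mdet_eE p.mdet_eD (inKer_kvec _ hE) (inKer_kvec _ hD) φ, h1, h2]
  ring

end Pair

end GalCurve

end FA.MW

end
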