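import Fermat.Agent.MW.Curve.Form

/-!
# The form does not depend on the representatives and commutes with the Galois action
-/

set_option autoImplicit false
set_option linter.unusedSectionVars false
set_option linter.style.haveILetI false

noncomputable section

namespace FA.MW

open AlgebraicCurve FA.Curve

local notation "Qb" => AlgebraicClosure ℚ

variable {F : Type} [Field F] [Algebra Qb F]

namespace GalCurve

variable {C : GalCurve F}

/-- Multiplication by a function moving a divisor. -/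
theorem transfer {d : ℕ} {P P' : Fin d → Place Qb F} (hP : Function.Injective P)
    (hP' : Function.Injective P') {k : F} (hk : k ≠ 0)
    (hord : ∀ v, v.ord k = C.divS (C.ptSet P' hP') v - C.divS (C.ptSet P hP) v) {c : Fin C.M → Qb}
    (hc : InKer (C.ev P) c) :
    C.fn c * k ∈ C.space C.m ∧ InKer (C.ev P') (C.crd (C.fn c * k)) := by
  refine C.inKer_of_atLeast hP' fun v => ?_
  refine ((C.atLeast_fn hP hc v).mul (atLeast_ord (v := v) k)).mono ?_
  rw [hord]
  omega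

theorem exists_moving {x : Pic0 Qb F} {P P' : Fin C.n → Place Qb F} {hP : Function.Injective P}
    {hP' : Function.Injective P'} (h : C.IsRep x (C.ptSet P hP)) (h' : C.IsRep x (C.ptSet P' hP')) :
    ∃ k : F, k ≠ 0 ∧ ∀ v, v.ord k = C.divS (C.ptSet P' hP') v - C.divS (C.ptSet P hP) v := by
  have hcls : C.cls (C.divS (C.ptSet P' hP') - C.divS (C.ptSet P hP)) = 0 := by
    rw [map_sub, h.cls_eq, h'.cls_eq, sub_self]
  obtain ⟨k, hk, e⟩ := C.cls_eq_zero_iff.1 hcls
  rw [map_sub, C.degree_divS, C.degree_divS, h.card, h'.card, sub_self, zero_smul, add_zero] at e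
  exact ⟨k, hk, fun v => by rw [← Finsupp.sub_apply, e, divOf_apply]⟩

namespace Pair

variable {x : Pic0 Qb F} (p : C.Pair x)

theorem rdet_ne_of_mul {e' : Fin C.n ⊕ Fin C.rr ≃ Fin C.M} {P P' : Fin C.n → Place Qb F}
    (he' : mdet (C.ev P') e' ≠ 0) {e : Fin C.n ⊕ Fin C.rr ≃ Fin C.M}
    (he : mdet (C.ev P) e ≠ 0) {k : F} (hk : k ≠ 0)
    (hmem : ∀ a, C.fn (kvec (C.ev P) e a) * k ∈ C.space C.m)
    (hker : ∀ a, InKer (C.ev P') (C.crd (C.fn (kvec (C.ev P) e a) * k))) :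
    rdet e' (fun a => C.crd (C.fn (kvec (C.ev P) e a) * k)) ≠ 0 := by
  refine rdet_ne_zero _ he' hker ?_
  rw [Fintype.linearIndependent_iff]
  intro g hg b
  have h1 : ∑ a, g a • (C.fn (kvec (C.ev P) e a) * k) = 0 := by
    rw [← C.fn_crd (Submodule.sum_mem _ fun a _ => Submodule.smul_mem _ _ (hmem a)),
      C.crd_sum _ _ hmem, C.fn_eq_zero]
    funext i
    simpa using congrFun hg i
  have h2 : C.fn (fun i => ∑ a, g a * kvec (C.ev P) e a i) = 0 := by
    rw [C.fn_sum]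
    refine (mul_eq_zero.1 ?_).resolve_right hk
    rw [Finset.sum_mul, ← h1]
    exact Finset.sum_congr rfl fun a _ => smul_mul_assoc _ _ _
  have h3 := congrFun (C.fn_eq_zero.1 h2) (e (Sum.inr b))
  simpa using h3

/-- **Other representatives give a proportional form.** -/
theorem exists_scalar (p' : C.Pair x) : ∃ c : Qb, c ≠ 0 ∧ ∀ φ, p'.form φ = c * p.form φ := by
  obtain ⟨kD, hkD, hkDo⟩ := exists_moving p.repD p'.repD
  obtain ⟨kE, hkE, hkEo⟩ := exists_moving p.repE p'.repE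
  set S := kvec (C.ev p.E) p.eE
  set T := kvec (C.ev p.D) p.eD
  have hS := inKer_kvec (C.ev p.E) p.mdet_eE
  have hT := inKer_kvec (C.ev p.D) p.mdet_eD
  set S' := fun a => C.crd (C.fn (S a) * kE)
  set T' := fun b => C.crd (C.fn (T b) * kD)
  have hS' : ∀ a, InKer (C.ev p'.E) (S' a) := fun a =>
    (transfer p.injE p'.injE hkE hkEo (hS a)).2
  have hT' : ∀ b, InKer (C.ev p'.D) (T' b) := fun b =>
    (transfer p.injD p'.injD hkD hkDo (hT b)).2
  obtain ⟨a, ha⟩ : ∃ a : Qb, (p'.q : F) = algebraMap Qb F a * ((p.q : F) * kD * kE) := by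
    have hne : (p.q : F) * kD * kE ≠ 0 := mul_ne_zero (mul_ne_zero p.q_ne' hkD) hkE
    obtain ⟨a, ha⟩ := Submodule.mem_span_singleton.1 (mem_span_of_isConst
      (f := (p'.q : F) / ((p.q : F) * kD * kE))
      (fun v => Or.inr (by
        rw [div_eq_mul_inv, v.ord_mul p'.q_ne' (inv_ne_zero hne), v.ord_inv,
          v.ord_mul (mul_ne_zero p.q_ne' hkD) hkE, v.ord_mul p.q_ne' hkD, hkDo, hkEo]
        have := p.ord_q v
        have := p'.ord_q v
        omega))
      fun g hg => exists_ord_neg C.hF hg)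
    rw [Algebra.smul_def, mul_one] at ha
    exact ⟨a, by rw [ha, div_mul_cancel₀ _ hne]⟩
  have ha0 : a ≠ 0 := fun h => p'.q_ne' (by rw [ha, h, map_zero, zero_mul])
  have hval : ∀ φ, p'.formVal S' T' φ = a⁻¹ ^ C.rr * p.formVal S T φ := by
    intro φ
    have e : ∀ b c, p'.cmat S' T' b c = fun i => a⁻¹ * p.cmat S T b c i := fun b c => by
      unfold cmat
      rw [← C.crd_smul (p.prod_mem (hS b) (hT c)), C.fn_crd (transfer p.injE p'.injE hkE hkEo (hS b)).1,
        C.fn_crd (transfer p.injD p'.injD hkD hkDo (hT c)).1]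
      congr 1
      rw [Algebra.smul_def, map_inv₀, ha]
      have := (_root_.map_ne_zero (algebraMap Qb F)).2 ha0
      have := p.q_ne'
      field_simp
    have h : (Matrix.of fun b c => ∑ i, φ i * p'.cmat S' T' b c i) =
        a⁻¹ • Matrix.of fun b c => ∑ i, φ i * p.cmat S T b c i := by
      ext b c
      simp only [Matrix.of_apply, Matrix.smul_apply, smul_eq_mul, e, Finset.mul_sum]
      exact Finset.sum_congr rfl fun i _ => by ring
    rw [formVal, h, Matrix.det_smul, Fintype.card_fin]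
    rfl
  set c' := rdet p'.eE S' / mdet (C.ev p'.E) p'.eE * (rdet p'.eD T' / mdet (C.ev p'.D) p'.eD)
  have hc' : c' ≠ 0 := mul_ne_zero
    (div_ne_zero (rdet_ne_of_mul p'.mdet_eE p.mdet_eE hkE
      (fun b => (transfer p.injE p'.injE hkE hkEo (hS b)).1) hS') p'.mdet_eE)
    (div_ne_zero (rdet_ne_of_mul p'.mdet_eD p.mdet_eD hkD
      (fun b => (transfer p.injD p'.injD hkD hkDo (hT b)).1) hT') p'.mdet_eD)
  have hM : mdet (C.ev p.E) p.eE * mdet (C.ev p.D) p.eD ≠ 0 := mul_ne_zero p.mdet_eE p.mdet_eD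
  refine ⟨a⁻¹ ^ C.rr / (c' * (mdet (C.ev p.E) p.eE * mdet (C.ev p.D) p.eD)),
    div_ne_zero (pow_ne_zero _ (inv_ne_zero ha0)) (mul_ne_zero hc' hM), fun φ => ?_⟩
  have h1 := p'.formVal_eq_form hS' hT' φ
  rw [hval] at h1
  rw [div_mul_eq_mul_div, eq_div_iff (mul_ne_zero hc' hM)]
  show _ = _ * (mdet (C.ev p.E) p.eE * mdet (C.ev p.D) p.eD * p.formVal S T φ)
  linear_combination -(mdet (C.ev p.E) p.eE * mdet (C.ev p.D) p.eD) * h1

end Pair

theorem gal_divS_ptSet (σ : Qb ≃ₐ[ℚ] Qb) {d : ℕ} {P : Fin d → Place Qb F}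
    (hP : Function.Injective P) :
    C.divS (C.ptSet (fun a => C.gal σ • P a) ((MulAction.injective _).comp hP)) =
      C.gal σ • C.divS (C.ptSet P hP) := by
  rw [divS, divS, ptSet, ptSet, Finset.sum_map, Finset.sum_map, Finset.smul_sum]
  exact Finset.sum_congr rfl fun a _ => (SemilinearAut.smul_single _ _ _).symm

theorem isRep_conj (σ : Qb ≃ₐ[ℚ] Qb) {y : Pic0 Qb F} (hσ : C.gal σ • y = y) {d : ℕ}
    {P : Fin d → Place Qb F} (hP : Function.Injective P) (hn : ∀ a, C.gal σ • P a ∉ C.sigma)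
    (h : C.IsRep y (C.ptSet P hP)) :
    C.IsRep y (C.ptSet (fun a => C.gal σ • P a) ((MulAction.injective _).comp hP)) where
  card := by rw [← h.card]; simp [ptSet]
  notMem v hv := by
    obtain ⟨a, rfl⟩ := C.mem_ptSet.1 hv
    exact hn a
  cls_eq := by rw [gal_divS_ptSet σ hP, C.cls_gal, h.cls_eq, hσ]

theorem gv_one_gal (σ : Qb ≃ₐ[ℚ] Qb) {P : Place Qb F} (hP : P ≠ C.inf) {g : F}
    (hg : g ∈ C.space (1 * C.m)) : C.gv 1 (C.gal σ • P) (C.gal σ • g) = σ (C.gv 1 P g) := by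
  have h' : C.gal σ • P ≠ C.inf := fun h0 => hP (smul_left_cancel (C.gal σ) (by rw [h0, C.gal_inf]))
  rw [gv, gv, C.scale_of_ne h', C.scale_of_ne hP, one_pow, mul_one, mul_one]
  exact C.val_gal σ ((C.mem_space.1 hg).1 P hP)

theorem ev_gal (σ : Qb ≃ₐ[ℚ] Qb) {d : ℕ} {P : Fin d → Place Qb F} (hP : ∀ a, P a ≠ C.inf) :
    C.ev (fun a => C.gal σ • P a) = (C.ev P).map (σ : Qb →+* Qb) := by
  ext a i
  exact C.fv_gal σ (hP a) i

namespace Pair

variable {x : Pic0 Qb F} (p : C.Pair x)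

/-- The conjugate representatives. -/
def conj (σ : Qb ≃ₐ[ℚ] Qb) (hσ : C.gal σ • x = x) (hD : ∀ a, C.gal σ • p.D a ∉ C.sigma)
    (hE : ∀ a, C.gal σ • p.E a ∉ C.sigma) : C.Pair x where
  D a := C.gal σ • p.D a
  E a := C.gal σ • p.E a
  injD := (MulAction.injective _).comp p.injD
  injE := (MulAction.injective _).comp p.injE
  repD := C.isRep_conj σ hσ p.injD hD p.repD
  repE := C.isRep_conj σ (by rw [smul_neg, hσ]) p.injE hE p.repE
  disj a b h := p.disj a b (MulAction.injective _ h)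
  q := ⟨C.gal σ • (p.q : F), C.gal_mem_space σ p.q.2⟩
  q_ne h := by
    have h' : C.gal σ • (p.q : F) = 0 := congrArg Subtype.val h
    exact p.q_ne' (by rw [← inv_smul_smul (C.gal σ) (p.q : F), h', smul_zero])
  q_D a := by
    rw [C.gv_one_gal σ (C.ne_inf_of_notMem (p.notMem_D a)) p.q.2, p.q_D a, map_zero]
  q_E a := by
    rw [C.gv_one_gal σ (C.ne_inf_of_notMem (p.notMem_E a)) p.q.2, p.q_E a, map_zero]

/-- **The conjugate form.** -/
theorem exists_gal_form (σ : Qb ≃ₐ[ℚ] Qb) (hσ : C.gal σ • x = x)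
    (hD : ∀ a, C.gal σ • p.D a ∉ C.sigma) (hE : ∀ a, C.gal σ • p.E a ∉ C.sigma) :
    ∃ ε : Qb, ∀ φ : Fin C.M → Qb,
      σ (p.form φ) = ε * (p.conj σ hσ hD hE).form fun i => σ (φ i) := by
  set p' := p.conj σ hσ hD hE
  have evD : C.ev p'.D = (C.ev p.D).map (σ : Qb →+* Qb) :=
    C.ev_gal σ fun a => C.ne_inf_of_notMem (p.notMem_D a)
  have evE : C.ev p'.E = (C.ev p.E).map (σ : Qb →+* Qb) :=
    C.ev_gal σ fun a => C.ne_inf_of_notMem (p.notMem_E a)
  obtain ⟨ε, hε, h⟩ := p'.exists_sign p.eE p.eD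
    (by rw [evE, mdet_map]; exact (_root_.map_ne_zero _).2 p.mdet_eE)
    (by rw [evD, mdet_map]; exact (_root_.map_ne_zero _).2 p.mdet_eD)
  refine ⟨ε, fun φ => ?_⟩
  rw [h, ← mul_assoc, hε, one_mul, evE, evD, mdet_map, mdet_map, form, map_mul, map_mul]
  refine congrArg _ ?_
  rw [formVal, formVal, AlgEquiv.map_det]
  congr 1
  ext a b
  simp only [AlgEquiv.mapMatrix_apply, Matrix.map_apply, Matrix.of_apply, map_sum, map_mul]
  refine Finset.sum_congr rfl fun i _ => congrArg _ ?_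
  unfold cmat
  rw [show C.fn (kvec ((C.ev p.E).map (σ : Qb →+* Qb)) p.eE a) =
      C.gal σ • C.fn (kvec (C.ev p.E) p.eE a) by
        rw [C.gal_fn]; exact congrArg C.fn (funext fun i => kvec_map _ _ _ _ _),
    show C.fn (kvec ((C.ev p.D).map (σ : Qb →+* Qb)) p.eD b) =
      C.gal σ • C.fn (kvec (C.ev p.D) p.eD b) by
        rw [C.gal_fn]; exact congrArg C.fn (funext fun i => kvec_map _ _ _ _ _),
    show (p'.q : F) = C.gal σ • (p.q : F) from rfl, ← smul_mul', show ∀ u v : F, C.gal σ • u / C.gal σ • v = C.gal σ • (u / v) from fun u v => by rw [div_eq_mul_inv, div_eq_mul_inv, smul_mul', smul_inv''],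
    C.crd_gal σ (p.prod_mem (inKer_kvec _ p.mdet_eE a) (inKer_kvec _ p.mdet_eD b))]

end Pair

/-- **The form of a fixed class is proportional to its conjugates.** -/
theorem exists_form_gal {x : Pic0 Qb F} (p : C.Pair x) (σ : Qb ≃ₐ[ℚ] Qb) (hσ : C.gal σ • x = x) :
    ∃ c : Qb, ∀ φ : Fin C.M → Qb, σ (p.form φ) = c * p.form fun i => σ (φ i) := by
  classical
  obtain ⟨p₁, hD, hE⟩ := C.exists_pair x (C.sigma.image fun v => (C.gal σ)⁻¹ • v)
  have hav : ∀ v, v ∉ C.sigma.image (fun v => (C.gal σ)⁻¹ • v) → C.gal σ • v ∉ C.sigma :=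
    fun v hv h => hv (Finset.mem_image.2 ⟨_, h, inv_smul_smul _ _⟩)
  obtain ⟨a, ha, hae⟩ := p.exists_scalar p₁
  obtain ⟨ε, hεe⟩ := p₁.exists_gal_form σ hσ (fun a => hav _ (hD a)) fun a => hav _ (hE a)
  obtain ⟨b, hb, hbe⟩ := p.exists_scalar (p₁.conj σ hσ (fun a => hav _ (hD a)) fun a => hav _ (hE a))
  refine ⟨ε * b / σ a, fun φ => ?_⟩
  have h := hεe φ
  rw [hae, map_mul, hbe] at h
  rw [div_mul_eq_mul_div, eq_div_iff ((_root_.map_ne_zero σ).2 ha)]
  linear_combination h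

end GalCurve

end FA.MW

end
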