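import Fermat.Agent.MW.Curve.Setup
import Fermat.Agent.MW.Defs

/-!
# The projective frame: a Galois fixed basis of the functions with pole at most `m` at infinity
-/

set_option autoImplicit false
set_option linter.unusedSectionVars false

noncomputable section

namespace FA.MW

open AlgebraicCurve FA.Curve

local notation "Qb" => AlgebraicClosure ℚ

/-- The moment form `∑ t ^ i * x i`. -/
def lam {R : Type*} [CommRing R] {M : ℕ} (t : ℕ) (x : Fin M → R) : R :=
  ∑ i : Fin M, (t : R) ^ (i : ℕ) * x i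

theorem map_lam {R S : Type*} [CommRing R] [CommRing S] (φ : R →+* S) {M : ℕ} (t : ℕ)
    (x : Fin M → R) : φ (lam t x) = lam t fun i => φ (x i) := by
  simp [lam]

variable {F : Type} [Field F] [Algebra Qb F]

namespace GalCurve

variable (C : GalCurve F)

/-- The degree of the divisors representing classes. -/
def n : ℕ := 2 * C.thr + 2 * genus Qb F + 4

/-- The degree of the frame. -/
def m : ℕ := 2 * C.n

theorem thr_lt_n : C.thr + 3 ≤ C.n := by unfold n; omega

theorem genus_lt_n : genus Qb F + 2 ≤ C.n := by unfold n; omega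

theorem n_pos : 0 < C.n := by have := C.thr_lt_n; omega

theorem m_pos : 0 < C.m := by have := C.n_pos; unfold m; omega

theorem thr_lt_m : 2 * C.thr + 6 ≤ C.m := by have := C.thr_lt_n; unfold m; omega

/-- The dimension of the frame. -/
def M : ℕ := (C.exists_fixed_basis C.m).choose

/-- The frame. -/
def basis : Module.Basis (Fin C.M) Qb (C.space C.m) :=
  (C.exists_fixed_basis C.m).choose_spec.choose

/-- The functions of the frame. -/
def f (i : Fin C.M) : F := (C.basis i : F)

theorem gal_f (σ : Qb ≃ₐ[ℚ] Qb) (i : Fin C.M) : C.gal σ • C.f i = C.f i :=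
  (C.exists_fixed_basis C.m).choose_spec.choose_spec σ i

theorem f_mem (i : Fin C.M) : C.f i ∈ C.space C.m := (C.basis i).2

theorem M_eq : (C.M : ℤ) = (C.m : ℤ) + 1 - genus Qb F := by
  rw [← C.finrank_space (by have := C.thr_lt_m; omega),
    Module.finrank_eq_card_basis C.basis, Fintype.card_fin]

theorem two_le_M : 2 ≤ C.M := by
  have := C.M_eq; have := C.genus_lt_n; unfold m at *; omega

theorem linearIndependent_f : LinearIndependent Qb C.f :=
  C.basis.linearIndependent.map' (C.space C.m).subtype (Submodule.ker_subtype _)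

theorem mem_space_iff_exists {g : F} :
    g ∈ C.space C.m ↔ ∃ c : Fin C.M → Qb, ∑ i, c i • C.f i = g := by
  constructor
  · intro hg
    refine ⟨fun i => C.basis.repr ⟨g, hg⟩ i, ?_⟩
    have := congrArg Subtype.val (C.basis.sum_repr ⟨g, hg⟩)
    simpa [f, -Module.Basis.sum_repr] using this
  · rintro ⟨c, rfl⟩
    exact Submodule.sum_mem _ fun i _ => Submodule.smul_mem _ _ (C.f_mem i)

/-! ### Scaling at infinity -/

/-- The divisor `k * m` times infinity. -/
def Dk (k : ℕ) : Divisor Qb F := Finsupp.single C.inf ((k * C.m : ℕ) : ℤ)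

theorem degree_Dk (k : ℕ) : Divisor.degree (C.Dk k) = ((k * C.m : ℕ) : ℤ) :=
  C.degree_single_one _ _

theorem Dk_nonneg (k : ℕ) : 0 ≤ C.Dk k := Finsupp.single_nonneg.2 (Int.natCast_nonneg _)

theorem Dk_apply (k : ℕ) (P : Place Qb F) : C.Dk k P = k * C.Dk 1 P := by
  classical
  simp only [Dk, Finsupp.single_apply]
  split_ifs <;> simp

theorem exists_top : ∃ g : F, g ≠ 0 ∧ C.inf.ord g = -(C.m : ℤ) := by
  obtain ⟨g, -, hg0, hg⟩ := C.exists_exact (C.Dk 1) {C.inf}
    (by rw [C.degree_Dk]; have := C.thr_lt_m; omega)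
  exact ⟨g, hg0, by simpa [Dk] using hg C.inf (Finset.mem_singleton_self _)⟩

open scoped Classical in
/-- The factor making the frame regular without common zero at `P`. -/
def scale (P : Place Qb F) : F := if P = C.inf then C.exists_top.choose⁻¹ else 1

theorem scale_ne_zero (P : Place Qb F) : C.scale P ≠ 0 := by
  unfold scale
  split_ifs
  · exact inv_ne_zero C.exists_top.choose_spec.1
  · exact one_ne_zero

theorem ord_scale (P : Place Qb F) : P.ord (C.scale P) = C.Dk 1 P := by
  unfold scale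
  split_ifs with h
  · subst h
    rw [C.inf.ord_inv, C.exists_top.choose_spec.2]
    simp [Dk]
  · simp [Dk, Finsupp.single_eq_of_ne h]

theorem scale_of_ne {P : Place Qb F} (h : P ≠ C.inf) : C.scale P = 1 := if_neg h

theorem ord_scale_pow (P : Place Qb F) (k : ℕ) : P.ord (C.scale P ^ k) = C.Dk k P := by
  rw [FA.ModField.place_ord_pow, C.ord_scale, ← C.Dk_apply k P]

theorem atLeast_mul_scale {k : ℕ} {g : F} (hg : g ∈ C.space (k * C.m)) (P : Place Qb F) :
    AtLeast P 0 (g * C.scale P ^ k) := by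
  have h1 : AtLeast P (-C.Dk k P) g := mem_riemannRochSpace.1 hg P
  simpa using h1.mul (Or.inr (C.ord_scale_pow P k).ge : AtLeast P (C.Dk k P) (C.scale P ^ k))

theorem atLeast_mul_scale_one {g : F} (hg : g ∈ C.space C.m) (P : Place Qb F) :
    AtLeast P 0 (g * C.scale P) := by
  have := C.atLeast_mul_scale (k := 1) (g := g) (by rwa [one_mul]) P
  rwa [pow_one] at this

/-- The value at `P` of a function with pole at most `k * m` at infinity, as a form of degree
`k`. -/
def gv (k : ℕ) (P : Place Qb F) (g : F) : Qb := C.val P (g * C.scale P ^ k)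

theorem gv_add {k : ℕ} {g g' : F} (hg : g ∈ C.space (k * C.m)) (hg' : g' ∈ C.space (k * C.m))
    (P : Place Qb F) : C.gv k P (g + g') = C.gv k P g + C.gv k P g' := by
  rw [gv, add_mul, C.val_add (C.atLeast_mul_scale hg P) (C.atLeast_mul_scale hg' P)]; rfl

theorem gv_smul {k : ℕ} {g : F} (hg : g ∈ C.space (k * C.m)) (a : Qb) (P : Place Qb F) :
    C.gv k P (a • g) = a * C.gv k P g := by
  rw [gv, smul_mul_assoc, C.val_smul (C.atLeast_mul_scale hg P)]; rfl

/-- Values as a linear form. -/
def gvLin (k : ℕ) (P : Place Qb F) : C.space (k * C.m) →ₗ[Qb] Qb where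
  toFun g := C.gv k P g
  map_add' g g' := C.gv_add g.2 g'.2 P
  map_smul' a g := C.gv_smul g.2 a P

theorem gv_sum {k : ℕ} {κ : Type} [Fintype κ] (b : Module.Basis κ Qb (C.space (k * C.m)))
    (g : C.space (k * C.m)) (P : Place Qb F) :
    C.gv k P g = ∑ l, b.repr g l * C.gv k P (b l : F) := by
  show C.gvLin k P g = ∑ l, b.repr g l * C.gvLin k P (b l)
  conv_lhs => rw [← b.sum_repr g]
  rw [map_sum]
  simp_rw [map_smul, smul_eq_mul]

/-- The point `P` of projective space. -/
def fv (P : Place Qb F) : Fin C.M → Qb := fun i => C.val P (C.f i * C.scale P)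

theorem fv_of_ne {P : Place Qb F} (h : P ≠ C.inf) (i : Fin C.M) : C.fv P i = C.val P (C.f i) := by
  rw [fv, C.scale_of_ne h, mul_one]

theorem val_sum_mul_scale (c : Fin C.M → Qb) (P : Place Qb F) :
    C.val P ((∑ i, c i • C.f i) * C.scale P) = ∑ i, c i * C.fv P i := by
  have key : ∀ s : Finset (Fin C.M),
      HasValue P ((∑ i ∈ s, c i • C.f i) * C.scale P) (∑ i ∈ s, c i * C.fv P i) := by
    intro s
    rw [Finset.sum_mul]
    refine HasValue.finsetSum fun i _ => ?_
    rw [Algebra.smul_def, mul_assoc]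
    exact (C.hasValue_val (C.atLeast_mul_scale_one (C.f_mem i) P)).smul (c i)
  exact C.val_eq (key Finset.univ)

theorem ord_gal_f (σ : Qb ≃ₐ[ℚ] Qb) (P : Place Qb F) (i : Fin C.M) :
    (C.gal σ • P).ord (C.f i) = P.ord (C.f i) := by
  conv_lhs => rw [← C.gal_f σ i]
  exact SemilinearAut.ord_smul _ _ _

theorem fv_gal (σ : Qb ≃ₐ[ℚ] Qb) {P : Place Qb F} (h : P ≠ C.inf) (i : Fin C.M) :
    C.fv (C.gal σ • P) i = σ (C.fv P i) := by
  have h' : C.gal σ • P ≠ C.inf := fun h0 => h (smul_left_cancel (C.gal σ) (by rw [h0, C.gal_inf]))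
  rw [C.fv_of_ne h', C.fv_of_ne h]
  conv_lhs => rw [← C.gal_f σ i]
  exact C.val_gal σ ((mem_space C).1 (C.f_mem i) |>.1 P h)

theorem exists_fv_ne_zero (P : Place Qb F) : ∃ i, C.fv P i ≠ 0 := by
  obtain ⟨g, hg, hg0, hgP⟩ := C.exists_exact (C.Dk 1) {P}
    (by rw [C.degree_Dk]; have := C.thr_lt_m; omega)
  have hgm : g ∈ C.space C.m := by simpa [space, Dk] using hg
  obtain ⟨c, rfl⟩ := C.mem_space_iff_exists.1 hgm
  by_contra hall
  push Not at hall
  have h0 := C.val_sum_mul_scale c P
  simp only [hall, mul_zero, Finset.sum_const_zero] at h0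
  rw [C.val_eq_zero_iff (C.atLeast_mul_scale_one hgm P),
    atLeast_iff (mul_ne_zero hg0 (C.scale_ne_zero P)), P.ord_mul hg0 (C.scale_ne_zero P),
    hgP P (Finset.mem_singleton_self _), C.ord_scale] at h0
  omega

theorem fv_ne_zero (P : Place Qb F) : C.fv P ≠ 0 := fun h => by
  obtain ⟨i, hi⟩ := C.exists_fv_ne_zero P
  exact hi (congrFun h i)

/-- The frame separates the places. -/
theorem wedge_fv_ne_zero {P Q : Place Qb F} (h : P ≠ Q) : wedge (C.fv P) (C.fv Q) ≠ 0 := by
  classical
  intro hw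
  obtain ⟨i₀, hi₀⟩ := C.exists_fv_ne_zero P
  obtain ⟨g, hg, hg0, hgQ⟩ := C.exists_exact (C.Dk 1 - Finsupp.single P 1) {Q}
    (by rw [map_sub, C.degree_Dk, C.degree_single_one]; have := C.thr_lt_m; omega)
  have hgm : g ∈ C.space C.m := by
    have := riemannRochSpace_mono
      (sub_le_self (C.Dk 1) (Finsupp.single_nonneg.2 zero_le_one : (0 : Divisor Qb F) ≤ Finsupp.single P 1)) hg
    simpa [space, Dk] using this
  have hP : AtLeast P 1 (g * C.scale P) := by
    have h1 : AtLeast P (-C.Dk 1 P + 1) g := (mem_riemannRochSpace.1 hg P).mono (by simp)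
    exact (h1.mul (Or.inr (C.ord_scale P).ge : AtLeast P (C.Dk 1 P) (C.scale P))).mono (by omega)
  obtain ⟨c, rfl⟩ := C.mem_space_iff_exists.1 hgm
  rw [← C.val_eq_zero_iff (C.atLeast_mul_scale_one hgm P), C.val_sum_mul_scale] at hP
  have hQ : C.val Q ((∑ i, c i • C.f i) * C.scale Q) = 0 := by
    rw [C.val_sum_mul_scale]
    refine (mul_right_inj' hi₀).1 ?_
    rw [Finset.mul_sum, mul_zero, ← mul_zero (C.fv Q i₀), ← hP, Finset.mul_sum]
    refine Finset.sum_congr rfl fun i _ => ?_
    have := congrFun hw (i₀, i)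
    simp only [wedge, Pi.zero_apply] at this
    linear_combination c i * this
  rw [C.val_eq_zero_iff (C.atLeast_mul_scale_one hgm Q),
    atLeast_iff (mul_ne_zero hg0 (C.scale_ne_zero Q)), Q.ord_mul hg0 (C.scale_ne_zero Q),
    hgQ Q (Finset.mem_singleton_self _), C.ord_scale, Finsupp.sub_apply,
    Finsupp.single_eq_of_ne (Ne.symm h)] at hQ
  omega

/-- The linear form of parameter `t`, as a function. -/
def hh (t : ℕ) : F := ∑ i : Fin C.M, ((t : Qb) ^ (i : ℕ)) • C.f i

theorem hh_ne_zero (t : ℕ) : C.hh t ≠ 0 := fun h => by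
  have := Fintype.linearIndependent_iff.1 C.linearIndependent_f _ h ⟨0, by have := C.two_le_M; omega⟩
  simp at this

theorem hh_mem (t : ℕ) : C.hh t ∈ C.space C.m :=
  Submodule.sum_mem _ fun i _ => Submodule.smul_mem _ _ (C.f_mem i)

theorem val_hh (t : ℕ) (P : Place Qb F) : C.val P (C.hh t * C.scale P) = lam t (C.fv P) :=
  C.val_sum_mul_scale _ P

end GalCurve

end FA.MW

end
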