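import Fermat.Agent.Curve.Value
import Fermat.Agent.Curve.TraceLocal
import Fermat.Prelude.Def_AlgebraicCurve_BaseChangeGalois
import Mathlib.FieldTheory.IsAlgClosed.AlgebraicClosure

/-!
# A curve over the algebraic numbers with a Galois action and a rational point with expansions

`GalCurve F` records what the height argument uses of the field `F` of `X₀(N)`: the semilinear
Galois action, the coefficients of the expansion at the rational place `inf`, and the derivation
`δ = d/dx` with the divisor `W` of `dx`.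
-/

set_option autoImplicit false
set_option linter.unusedSectionVars false
set_option linter.style.haveILetI false

noncomputable section

namespace FA.MW

open AlgebraicCurve FA.Curve

local notation "Qb" => AlgebraicClosure ℚ

variable {F : Type} [Field F] [Algebra Qb F]

variable (F) in
/-- A curve over the algebraic numbers with its structure over the rationals. -/
structure GalCurve where
  hF : IsFunctionField Qb F
  gal : (Qb ≃ₐ[ℚ] Qb) →* SemilinearAut Qb F
  baseAut_gal : ∀ σ a, SemilinearAut.baseAut (gal σ) a = σ a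
  inf : Place Qb F
  coef : F →ₗ[Qb] (ℤ → Qb)
  coef_gal : ∀ σ f i, coef (gal σ • f) i = σ (coef f i)
  atLeast_inf : ∀ (f : F) (k : ℤ), AtLeast inf k f ↔ ∀ i < k, coef f i = 0
  δ : Derivation Qb F F
  W : Divisor Qb F
  ord_δ : ∀ (v : Place Qb F) (f : F), v.ord f ≠ 0 → δ f ≠ 0 ∧ v.ord (δ f) = v.ord f - 1 - W v
  degree_W : 2 * (genus Qb F : ℤ) - 2 ≤ Divisor.degree W

/-- Subspaces which do not contain `V` are avoided by an element of `V`. -/
theorem exists_mem_forall_notMem {L E τ : Type*} [Field L] [Infinite L] [AddCommGroup E]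
    [Module L E] (V : Submodule L E) (T : Finset τ) (P : τ → Submodule L E)
    (h : ∀ t ∈ T, ∃ g ∈ V, g ∉ P t) : ∃ g ∈ V, ∀ t ∈ T, g ∉ P t := by
  classical
  induction T using Finset.induction_on with
  | empty => exact ⟨0, V.zero_mem, by simp⟩
  | @insert a T ha ih =>
    obtain ⟨g, hg, hgT⟩ := ih fun t ht => h t (Finset.mem_insert_of_mem ht)
    obtain ⟨g', hg', hga⟩ := h a (Finset.mem_insert_self a T)
    have hone : ∀ t ∈ insert a T, Set.Subsingleton {c : L | g + c • g' ∈ P t} := by
      intro t ht c hc c' hc'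
      by_contra hne
      have h1 : (c - c') • g' ∈ P t := by
        have := (P t).sub_mem hc hc'
        rwa [add_sub_add_left_eq_sub, ← sub_smul] at this
      have h2 : g' ∈ P t := by
        have := (P t).smul_mem (c - c')⁻¹ h1
        rwa [smul_smul, inv_mul_cancel₀ (sub_ne_zero.2 hne), one_smul] at this
      rcases Finset.mem_insert.1 ht with rfl | ht'
      · exact hga h2
      · refine hgT t ht' ?_
        have := (P t).sub_mem hc ((P t).smul_mem c h2)
        rwa [add_sub_cancel_right] at this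
    have hfin : {c : L | ∃ t ∈ insert a T, g + c • g' ∈ P t}.Finite :=
      ((Finset.finite_toSet (insert a T)).biUnion fun t ht => (hone t ht).finite).subset
        fun c hc => by
          obtain ⟨t, ht, hc⟩ := hc
          exact Set.mem_biUnion ht hc
    obtain ⟨c, hc⟩ := hfin.infinite_compl.nonempty
    exact ⟨g + c • g', V.add_mem hg (V.smul_mem c hg'), fun t ht hmem => hc ⟨t, ht, hmem⟩⟩

namespace GalCurve

variable (C : GalCurve F)

include C

/-! ### Orders and values -/

open scoped Classical in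
/-- The value of a function at a place (zero at a pole). -/
def val (_C : GalCurve F) (P : Place Qb F) (g : F) : Qb :=
  if h : ∃ c : Qb, HasValue P g c then h.choose else 0

theorem val_eq {P : Place Qb F} {g : F} {c : Qb} (h : HasValue P g c) : C.val P g = c := by
  have he : ∃ c : Qb, HasValue P g c := ⟨c, h⟩
  rw [val, dif_pos he]
  exact he.choose_spec.unique h

theorem hasValue_val {P : Place Qb F} {g : F} (h : AtLeast P 0 g) : HasValue P g (C.val P g) := by
  obtain ⟨c, hc⟩ := exists_hasValue C.hF h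
  rwa [C.val_eq hc]

theorem val_algebraMap (P : Place Qb F) (a : Qb) : C.val P (algebraMap Qb F a) = a :=
  C.val_eq (hasValue_algebraMap P a)

theorem val_add {P : Place Qb F} {g g' : F} (h : AtLeast P 0 g) (h' : AtLeast P 0 g') :
    C.val P (g + g') = C.val P g + C.val P g' :=
  C.val_eq ((C.hasValue_val h).add (C.hasValue_val h'))

theorem val_mul {P : Place Qb F} {g g' : F} (h : AtLeast P 0 g) (h' : AtLeast P 0 g') :
    C.val P (g * g') = C.val P g * C.val P g' :=
  C.val_eq ((C.hasValue_val h).mul (C.hasValue_val h'))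

theorem val_pow {P : Place Qb F} {g : F} (h : AtLeast P 0 g) (k : ℕ) :
    C.val P (g ^ k) = C.val P g ^ k :=
  C.val_eq ((C.hasValue_val h).pow k)

theorem val_smul {P : Place Qb F} {g : F} (h : AtLeast P 0 g) (a : Qb) :
    C.val P (a • g) = a * C.val P g := by
  rw [Algebra.smul_def, C.val_eq ((C.hasValue_val h).smul a)]

theorem val_eq_zero_iff {P : Place Qb F} {g : F} (h : AtLeast P 0 g) :
    C.val P g = 0 ↔ AtLeast P 1 g :=
  ⟨fun h0 => hasValue_zero_iff.1 (h0 ▸ C.hasValue_val h), fun h1 => C.val_eq (hasValue_zero_iff.2 h1)⟩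

theorem ord_gal (σ : Qb ≃ₐ[ℚ] Qb) (P : Place Qb F) (g : F) :
    P.ord (C.gal σ • g) = ((C.gal σ)⁻¹ • P).ord g := by
  conv_lhs => rw [← smul_inv_smul (C.gal σ) P]
  exact SemilinearAut.ord_smul _ _ _

theorem atLeast_gal_iff (σ : Qb ≃ₐ[ℚ] Qb) {P : Place Qb F} {g : F} {k : ℤ} :
    AtLeast (C.gal σ • P) k (C.gal σ • g) ↔ AtLeast P k g := by
  rw [AtLeast, AtLeast, SemilinearAut.ord_smul]
  refine or_congr ⟨fun h => ?_, fun h => by rw [h, smul_zero]⟩ Iff.rfl
  rw [← inv_smul_smul (C.gal σ) g, h, smul_zero]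

theorem gal_algebraMap (σ : Qb ≃ₐ[ℚ] Qb) (a : Qb) :
    C.gal σ • algebraMap Qb F a = algebraMap Qb F (σ a) := by
  rw [SemilinearAut.smul_algebraMap, C.baseAut_gal]

theorem gal_smul (σ : Qb ≃ₐ[ℚ] Qb) (a : Qb) (g : F) : C.gal σ • (a • g) = σ a • (C.gal σ • g) := by
  rw [Algebra.smul_def, Algebra.smul_def, smul_mul', C.gal_algebraMap]

theorem hasValue_gal (σ : Qb ≃ₐ[ℚ] Qb) {P : Place Qb F} {g : F} {c : Qb} (h : HasValue P g c) :
    HasValue (C.gal σ • P) (C.gal σ • g) (σ c) := by
  rw [HasValue, ← C.gal_algebraMap, ← smul_sub, C.atLeast_gal_iff]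
  exact h

theorem gal_inf (σ : Qb ≃ₐ[ℚ] Qb) : C.gal σ • C.inf = C.inf := by
  refine Place.ext (SetLike.ext fun g => ?_)
  rw [← atLeast_zero_iff_mem, ← atLeast_zero_iff_mem]
  conv_lhs => rw [← smul_inv_smul (C.gal σ) g]
  rw [C.atLeast_gal_iff, C.atLeast_inf, C.atLeast_inf]
  conv_rhs => rw [← smul_inv_smul (C.gal σ) g]
  simp only [C.coef_gal, map_eq_zero]

theorem val_gal (σ : Qb ≃ₐ[ℚ] Qb) {P : Place Qb F} {g : F} (h : AtLeast P 0 g) :
    C.val (C.gal σ • P) (C.gal σ • g) = σ (C.val P g) :=
  C.val_eq (C.hasValue_gal σ (C.hasValue_val h))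

theorem eq_of_ord_eq {P P' : Place Qb F} (h : ∀ g, P.ord g = P'.ord g) : P = P' :=
  Place.ext (SetLike.ext fun g => by rw [FA.ModField.mem_place_iff, FA.ModField.mem_place_iff, h])

/-! ### Dimensions in large degree -/

theorem exists_thr : ∃ t : ℕ, ∀ D : Divisor Qb F, (t : ℤ) ≤ Divisor.degree D →
    ell D = Divisor.degree D + 1 - genus Qb F := by
  obtain ⟨c, hc⟩ := exists_threshold C.hF
  exact ⟨c.toNat, fun D hD => hc D (by omega)⟩

/-- A degree from which `l(D) = deg D + 1 - g`. -/
def thr : ℕ := C.exists_thr.choose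

theorem ell_eq {D : Divisor Qb F} (h : (C.thr : ℤ) ≤ Divisor.degree D) :
    ell D = Divisor.degree D + 1 - genus Qb F :=
  C.exists_thr.choose_spec D h

theorem degree_single_one (v : Place Qb F) (k : ℤ) : Divisor.degree (Finsupp.single v k) = k := by
  rw [Divisor.degree_single, C.hF.deg_eq_one]; simp

/-- Functions with the exact orders allowed by `D` at finitely many places. -/
theorem exists_exact (D : Divisor Qb F) (T : Finset (Place Qb F))
    (hD : (C.thr : ℤ) + 1 ≤ Divisor.degree D) :
    ∃ g ∈ riemannRochSpace D, g ≠ 0 ∧ ∀ v ∈ T, v.ord g = -D v := by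
  classical
  haveI := infinite_places C.hF
  obtain ⟨v₀⟩ : Nonempty (Place Qb F) := inferInstance
  have key : ∀ v ∈ insert v₀ T, ∃ g ∈ riemannRochSpace D, g ∉ riemannRochSpace (D - Finsupp.single v 1) := by
    intro v _
    by_contra hno
    push Not at hno
    haveI := finite_riemannRochSpace C.hF (D - Finsupp.single v 1)
    have h1 : ell D ≤ ell (D - Finsupp.single v 1) :=
      Int.ofNat_le.2 (Submodule.finrank_mono hno)
    rw [C.ell_eq (by omega), C.ell_eq (by rw [map_sub, C.degree_single_one]; omega), map_sub,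
      C.degree_single_one] at h1
    omega
  obtain ⟨g, hg, hgT⟩ := exists_mem_forall_notMem _ (insert v₀ T)
    (fun v => riemannRochSpace (D - Finsupp.single v 1)) key
  have hord : ∀ v ∈ insert v₀ T, g ≠ 0 ∧ v.ord g = -D v := by
    intro v hv
    have hnot := hgT v hv
    rw [mem_riemannRochSpace] at hg hnot
    push Not at hnot
    obtain ⟨u, hu⟩ := hnot
    have hgu := hg u
    rcases eq_or_ne u v with rfl | hne
    · simp only [Finsupp.sub_apply, Finsupp.single_eq_same, AtLeast, not_or, not_le] at hu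
      refine ⟨hu.1, ?_⟩
      rw [atLeast_iff hu.1] at hgu
      omega
    · rw [Finsupp.sub_apply, Finsupp.single_eq_of_ne hne, sub_zero] at hu
      exact absurd hgu hu
  exact ⟨g, hg, (hord v₀ (Finset.mem_insert_self _ _)).1,
    fun v hv => (hord v (Finset.mem_insert_of_mem hv)).2⟩

/-! ### Functions with a pole only at infinity -/

/-- Functions with a pole of order at most `k` at infinity and no other. -/
def space (k : ℕ) : Submodule Qb F := riemannRochSpace (Finsupp.single C.inf (k : ℤ))

theorem mem_space {k : ℕ} {g : F} :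
    g ∈ C.space k ↔ (∀ v, v ≠ C.inf → AtLeast v 0 g) ∧ AtLeast C.inf (-(k : ℤ)) g := by
  rw [space, mem_riemannRochSpace]
  refine ⟨fun h => ⟨fun v hv => by simpa [Finsupp.single_eq_of_ne hv] using h v,
    by simpa using h C.inf⟩, fun h v => ?_⟩
  rcases eq_or_ne v C.inf with rfl | hv
  · simpa using h.2
  · simpa [Finsupp.single_eq_of_ne hv] using h.1 v hv

theorem space_mono {a b : ℕ} (h : a ≤ b) : C.space a ≤ C.space b :=
  riemannRochSpace_mono (Finsupp.single_le_single.2 (by exact_mod_cast h))

instance finite_space (k : ℕ) : Module.Finite Qb (C.space k) :=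
  finite_riemannRochSpace C.hF _

theorem finrank_space {k : ℕ} (h : C.thr ≤ k) :
    (Module.finrank Qb (C.space k) : ℤ) = (k : ℤ) + 1 - genus Qb F := by
  have := C.ell_eq (D := Finsupp.single C.inf (k : ℤ)) (by rw [C.degree_single_one]; omega)
  rwa [C.degree_single_one] at this

theorem space_mul_le (a b : ℕ) : C.space a * C.space b ≤ C.space (a + b) := by
  refine Submodule.mul_le.2 fun p hp q hq => ?_
  rw [mem_space] at hp hq ⊢
  refine ⟨fun v hv => by simpa using (hp.1 v hv).mul (hq.1 v hv), (hp.2.mul hq.2).mono ?_⟩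
  push_cast
  omega

theorem gal_mem_space (σ : Qb ≃ₐ[ℚ] Qb) {k : ℕ} {g : F} (h : g ∈ C.space k) :
    C.gal σ • g ∈ C.space k := by
  rw [mem_space] at h ⊢
  refine ⟨fun v hv => ?_, ?_⟩
  · rw [← smul_inv_smul (C.gal σ) v, C.atLeast_gal_iff]
    refine h.1 _ fun h0 => hv ?_
    rw [← smul_inv_smul (C.gal σ) v, h0, C.gal_inf]
  · have := (C.atLeast_gal_iff σ (P := C.inf)).2 h.2
    rwa [C.gal_inf] at this

/-- The base point free pencil trick. -/
theorem space_add_le {a b : ℕ} (hb : C.thr + 1 ≤ b) (hab : b + C.thr ≤ a) :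
    C.space (a + b) ≤ C.space a * C.space b := by
  classical
  set D := Finsupp.single C.inf (b : ℤ)
  obtain ⟨g₁, hg₁, hg₁0, hg₁inf⟩ := C.exists_exact D {C.inf} (by
    rw [C.degree_single_one]; omega)
  obtain ⟨g₂, hg₂, hg₂0, hg₂T⟩ := C.exists_exact D ((finite_zeros C.hF g₁).toFinset.erase C.inf)
    (by rw [C.degree_single_one]; omega)
  have h1inf : C.inf.ord g₁ = -(b : ℤ) := by simpa [D] using hg₁inf C.inf (Finset.mem_singleton_self _)
  let Φ : C.space a × C.space a →ₗ[Qb] F :=
    (LinearMap.mulLeft Qb g₁ ∘ₗ (C.space a).subtype).coprod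
      (LinearMap.mulLeft Qb g₂ ∘ₗ (C.space a).subtype)
  have hΦ : ∀ p q : C.space a, Φ (p, q) = g₁ * p + g₂ * q := fun _ _ => rfl
  have hker : ∀ x : LinearMap.ker Φ, ((x : C.space a × C.space a).1 : F) / g₂ ∈ C.space (a - b) := by
    rintro ⟨⟨p, q⟩, hx⟩
    rw [LinearMap.mem_ker, hΦ] at hx
    have hw : (p : F) / g₂ = -(q : F) / g₁ := by
      rw [div_eq_div_iff hg₂0 hg₁0]; linear_combination hx
    have hb1 : C.space b = riemannRochSpace D := rfl
    rw [← hb1, mem_space] at hg₁ hg₂
    rw [mem_space]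
    have hp := (C.mem_space).1 p.2
    have hq := (C.mem_space).1 q.2
    have hinv : ∀ (v : Place Qb F) (g : F), v.ord g = 0 → AtLeast v 0 g⁻¹ := fun v g hg =>
      Or.inr (by rw [v.ord_inv, hg]; simp)
    refine ⟨fun v hv => ?_, ?_⟩
    · by_cases hz : 0 < v.ord g₁
      · have h2 : v.ord g₂ = 0 := by
          have := hg₂T v (Finset.mem_erase.2 ⟨hv, (Set.Finite.mem_toFinset _).2 hz⟩)
          simpa [D, Finsupp.single_eq_of_ne hv] using this
        simpa [div_eq_mul_inv] using (hp.1 v hv).mul (hinv v g₂ h2)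
      · have h1 : v.ord g₁ = 0 := by
          have := (atLeast_iff hg₁0).1 (hg₁.1 v hv)
          omega
        show AtLeast v 0 ((p : F) / g₂)
        rw [hw, div_eq_mul_inv]
        simpa using (hq.1 v hv).neg.mul (hinv v g₁ h1)
    · show AtLeast C.inf _ ((p : F) / g₂)
      rw [hw, div_eq_mul_inv]
      refine (hq.2.neg.mul (Or.inr ?_ : AtLeast C.inf (b : ℤ) g₁⁻¹)).mono (by omega)
      rw [C.inf.ord_inv, h1inf]; omega
  let Ψ : LinearMap.ker Φ →ₗ[Qb] C.space (a - b) :=
    { toFun := fun x => ⟨_, hker x⟩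
      map_add' := fun x y => Subtype.ext (by simp [add_div])
      map_smul' := fun c x => Subtype.ext (by simp [smul_div_assoc]) }
  have hΨ : Function.Injective Ψ := by
    intro x y hxy
    obtain ⟨⟨p, q⟩, hx⟩ := x
    obtain ⟨⟨p', q'⟩, hy⟩ := y
    have h1 : (p : F) = p' := (div_left_inj' hg₂0).1 (congrArg Subtype.val hxy)
    rw [LinearMap.mem_ker, hΦ] at hx hy
    have h2 : (q : F) = q' := mul_left_cancel₀ hg₂0 (by linear_combination hx - hy - g₁ * h1)
    exact Subtype.ext (Prod.ext (Subtype.ext h1) (Subtype.ext h2))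
  have hrange : LinearMap.range Φ ≤ C.space a * C.space b := by
    rintro _ ⟨⟨p, q⟩, rfl⟩
    rw [hΦ, mul_comm g₁, mul_comm g₂]
    exact add_mem (Submodule.mul_mem_mul p.2 hg₁) (Submodule.mul_mem_mul q.2 hg₂)
  have heq : LinearMap.range Φ = C.space (a + b) := by
    refine Submodule.eq_of_le_of_finrank_le (hrange.trans (C.space_mul_le a b)) ?_
    have h1 := LinearMap.finrank_range_add_finrank_ker Φ
    have h2 := LinearMap.finrank_le_finrank_of_injective hΨ
    have h3 := C.finrank_space (k := a) (by omega)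
    have h4 := C.finrank_space (k := a - b) (by omega)
    have h5 := C.finrank_space (k := a + b) (by omega)
    rw [Module.finrank_prod] at h1
    push_cast [Nat.cast_sub (show b ≤ a by omega)] at h4
    omega
  exact heq ▸ hrange

/-- Coefficients determine the functions of bounded pole order. -/
theorem eq_zero_of_coef {k : ℕ} {g : F} (hg : g ∈ C.space k)
    (h : ∀ i : Fin (k + 1), C.coef g (-(i : ℤ)) = 0) : g = 0 := by
  classical
  by_contra hne
  obtain ⟨hfin, hinf⟩ := C.mem_space.1 hg
  have h1 : AtLeast C.inf 1 g := (C.atLeast_inf g 1).2 fun i hi => by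
    rcases lt_or_ge i (-(k : ℤ)) with hlt | hge
    · exact (C.atLeast_inf g _).1 hinf i hlt
    · have := h ⟨(-i).toNat, by omega⟩
      simpa [Int.toNat_of_nonneg (show 0 ≤ -i by omega)] using this
  have h2 := degree_divOf C.hF g
  rw [degree_eq_finset_sum C.hF _ (Finset.subset_insert C.inf (divOf C.hF g).support)] at h2
  have h3 := Finset.single_le_sum (f := fun v => divOf C.hF g v)
    (s := insert C.inf (divOf C.hF g).support) (fun v _ => by
      rcases eq_or_ne v C.inf with rfl | hv
      · simp only [divOf_apply]; exact zero_le_one.trans ((atLeast_iff hne).1 h1)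
      · simpa using (atLeast_iff hne).1 (hfin v hv)) (Finset.mem_insert_self _ _)
  simp only [divOf_apply] at h2 h3
  have := (atLeast_iff hne).1 h1
  omega

/-- A basis fixed by the Galois action. -/
theorem exists_fixed_basis (k : ℕ) :
    ∃ (d : ℕ) (b : Module.Basis (Fin d) Qb (C.space k)),
      ∀ σ i, C.gal σ • ((b i : C.space k) : F) = b i := by
  classical
  let φ : Fin (k + 1) → Module.Dual Qb (C.space k) := fun i =>
    (LinearMap.proj (-(i : ℤ))).comp (C.coef.comp (C.space k).subtype)
  have hφ : ∀ i (g : C.space k), φ i g = C.coef g (-(i : ℤ)) := fun _ _ => rfl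
  have hspan : Submodule.span Qb (Set.range φ) = ⊤ := by
    refine eq_top_iff.2 fun l _ => mem_span_of_iInf_ker_le_ker fun g hg => ?_
    simp only [Submodule.mem_iInf, LinearMap.mem_ker, hφ] at hg
    have : g = 0 := Subtype.ext (C.eq_zero_of_coef g.2 hg)
    simp [this]
  obtain ⟨s, hs, hsspan, hli⟩ := exists_linearIndependent Qb (Set.range φ)
  haveI : Fintype s := ((Set.finite_range φ).subset hs).fintype
  let B : Module.Basis s Qb (Module.Dual Qb (C.space k)) :=
    Module.Basis.mk hli (by rw [Subtype.range_coe, hsspan, hspan])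
  let b : Module.Basis s Qb (C.space k) :=
    B.dualBasis.map (Module.evalEquiv Qb (C.space k)).symm
  refine ⟨Fintype.card s, b.reindex (Fintype.equivFin s), fun σ i => ?_⟩
  rw [Module.Basis.reindex_apply]
  generalize (Fintype.equivFin s).symm i = j
  have hb : ∀ t : s, (t : Module.Dual Qb (C.space k)) (b j) = if t = j then 1 else 0 := fun t => by
    have h1 : (t : Module.Dual Qb (C.space k)) = B t := (Module.Basis.mk_apply hli _ t).symm
    rw [h1, Module.Basis.map_apply, Module.apply_evalEquiv_symm_apply,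
      Module.Basis.dualBasis_apply_self]
  set g : C.space k := ⟨C.gal σ • ((b j : C.space k) : F), C.gal_mem_space σ (b j).2⟩ with hg
  have heq : g = b j := by
    rw [← sub_eq_zero]
    refine (LinearMap.ker_eq_bot'.1 (?_ : LinearMap.ker (LinearMap.pi fun t : s =>
      (t : Module.Dual Qb (C.space k))) = ⊥)) _ (funext fun t => ?_)
    · refine LinearMap.ker_eq_bot'.2 fun x hx => ?_
      refine (Module.forall_dual_apply_eq_zero_iff Qb x).1 fun l => ?_
      have hl : l ∈ Submodule.span Qb s := by rw [hsspan, hspan]; trivial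
      induction hl using Submodule.span_induction with
      | mem t ht => exact congrFun hx ⟨t, ht⟩
      | zero => simp
      | add t t' _ _ h h' => simp [h, h']
      | smul a t _ h => simp [h]
    · obtain ⟨t, ht⟩ := t
      obtain ⟨i', rfl⟩ := hs ht
      have h2 := hb ⟨φ i', ht⟩
      simp only [hφ] at h2
      rw [LinearMap.pi_apply, map_sub, Pi.zero_apply, sub_eq_zero]
      show φ i' g = φ i' (b j)
      rw [hφ, hφ, hg, C.coef_gal, h2]
      split_ifs <;> simp
  exact congrArg Subtype.val heq

end GalCurve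

end FA.MW

end
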